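import Fermat.Agent.GJ.J1.Val.GaussRedData
import Fermat.Prelude.Thm_ModularCurve_coeffMap_qExpand
import Fermat.Prelude.Def_ModularCurve_HeckeOperator

/-!
# GATE-K / N6 K2'-QS, file 1 (helper15): the Gauss reduction of OLD functions

`L` a field, `A` a valuation subring with residue field `k`, `F' , F ⊂ L((q))` two intermediate
fields with the Gauss fraction property (J1 `Val.HasGaussFrac`), `Rw A F`, `redL A F` the Gauss
valuation ring and its coefficientwise reduction (`GJ/J1/Val/GaussRedData.lean`).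

A *compatible triple* `(θL, θA, θk)` of ring endomorphisms of `L((q))`, `A((q))`, `k((q))`
(commuting with the coefficientwise embedding `emb` and the coefficientwise reduction `rd`) that
maps `F'` into `F` transports the Gauss valuation:

* `mem_Rw_map_iff` : `x ∈ Rw A F' ↔ θL x ∈ Rw A F`;
* `redL_map` : `redL A F (θL x) = θk (redL A F' x)`.

Instances: `θ = id` (`F' ≤ F`: the restriction of the Gauss valuation of `F` to `F'` is the Gauss
valuation of `F'`, with the same reduction) and `θ = qExpand q` (`f(q) ↦ f(q^q)`).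

Concrete form (`Qbar` section): for the degeneracy maps `α = heckeAlphaBar`, `β = heckeBetaBar`
`: ℚ̄(X₀(N')) → ℚ̄(X₀(N' ℓ))` of the prelude,

  `red₁ (α f) = f~`,   `red₁ (β f) = f~(Q^ℓ) = qExpand k ℓ f~`,

and `α f ∈ Rw ↔ f ∈ Rw' ↔ β f ∈ Rw`.  (In characteristic `ℓ`,
`qExpand k ℓ y = (coefficientwise ℓ-th root of y) ^ ℓ`: `GJ/J3/QSeries.lean`
`QS.pow_char_eq_qExpand`, `GJ/S37/FrobSpecial.lean` `frobField_eq`.)
-/

set_option autoImplicit false

noncomputable section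

namespace Fermat.Agent.GK.QS

open HahnSeries ModularCurve Fermat.Agent.GJ.J1 Fermat.Agent.GJ.J1.Val

section Generic

variable {L : Type*} [Field L] (A : ValuationSubring L)

/-- a triple of ring endomorphisms of `L((q))`, `A((q))`, `k((q))` compatible with the
coefficientwise embedding and the coefficientwise reduction -/
structure CoeffCompat (θL : LaurentSeries L →+* LaurentSeries L)
    (θA : LaurentSeries A →+* LaurentSeries A)
    (θk : LaurentSeries (IsLocalRing.ResidueField A) →+*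
      LaurentSeries (IsLocalRing.ResidueField A)) : Prop where
  emb_comm : ∀ a, emb A (θA a) = θL (emb A a)
  rd_comm : ∀ a, rd A (θA a) = θk (rd A a)

/-- the identity triple -/
theorem coeffCompat_id :
    CoeffCompat A (RingHom.id _) (RingHom.id _) (RingHom.id _) :=
  ⟨fun _ => rfl, fun _ => rfl⟩

/-- the triple `q ↦ q^n` -/
theorem coeffCompat_qExpand (n : ℕ) [NeZero n] :
    CoeffCompat A (qExpand L n) (qExpand A n) (qExpand (IsLocalRing.ResidueField A) n) :=
  ⟨fun a => coeffMap_qExpand _ n a, fun a => coeffMap_qExpand _ n a⟩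

variable {A}
variable {F' F : IntermediateField L (LaurentSeries L)}
variable {θL : LaurentSeries L →+* LaurentSeries L} {θA : LaurentSeries A →+* LaurentSeries A}
  {θk : LaurentSeries (IsLocalRing.ResidueField A) →+* LaurentSeries (IsLocalRing.ResidueField A)}

theorem CoeffCompat.isFrac (h : CoeffCompat A θL θA θk) (hmap : ∀ x ∈ F', θL x ∈ F)
    {x : LaurentSeries L} {a b : LaurentSeries A} (hx : IsFrac A F' x a b) :
    IsFrac A F (θL x) (θA a) (θA b) := by
  obtain ⟨ha, hb, hb0, hxb⟩ := hx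
  refine ⟨?_, ?_, ?_, ?_⟩
  · rw [h.emb_comm]; exact hmap _ ha
  · rw [h.emb_comm]; exact hmap _ hb
  · rw [h.rd_comm]
    intro h0
    exact hb0 (θk.injective (by rw [h0, map_zero]))
  · rw [h.emb_comm, h.emb_comm, ← map_mul, hxb]

variable (hGF' : HasGaussFrac A F') (hGF : HasGaussFrac A F)

/-- `θ` maps the Gauss valuation ring of `F'` into that of `F` -/
theorem CoeffCompat.mem_Rw_map (h : CoeffCompat A θL θA θk) (hmap : ∀ x ∈ F', θL x ∈ F)
    {x : F'} (hx : x ∈ Rw A F' hGF') :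
    (⟨θL (x : LaurentSeries L), hmap _ x.2⟩ : F) ∈ Rw A F hGF := by
  obtain ⟨a, b, hab⟩ := hx
  exact ⟨θA a, θA b, h.isFrac hmap hab⟩

/-- **the reduction of `θ x` is `θ` of the reduction** -/
theorem CoeffCompat.redL_map (h : CoeffCompat A θL θA θk) (hmap : ∀ x ∈ F', θL x ∈ F)
    (x : Rw A F' hGF') :
    redL A F hGF ⟨⟨θL ((x : F') : LaurentSeries L), hmap _ (x : F').2⟩,
      h.mem_Rw_map hGF' hGF hmap x.2⟩ = θk (redL A F' hGF' x) := by
  obtain ⟨a, b, hab⟩ := x.2
  have h2 : IsFrac A F (((⟨⟨θL ((x : F') : LaurentSeries L), hmap _ (x : F').2⟩,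
      h.mem_Rw_map hGF' hGF hmap x.2⟩ : Rw A F hGF) : F) : LaurentSeries L) (θA a) (θA b) :=
    h.isFrac hmap hab
  rw [redL_eq h2, redL_eq hab, h.rd_comm, h.rd_comm, map_div₀]

/-- conversely, if `θ x` is `w`-integral then so is `x` -/
theorem CoeffCompat.mem_Rw_of_map_mem (h : CoeffCompat A θL θA θk) (hmap : ∀ x ∈ F', θL x ∈ F)
    {x : F'} (hx : (⟨θL (x : LaurentSeries L), hmap _ x.2⟩ : F) ∈ Rw A F hGF) :
    x ∈ Rw A F' hGF' := by
  by_contra hnot
  have hx0 : x ≠ 0 := by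
    rintro rfl
    exact hnot (Rw A F' hGF').zero_mem
  have hinv : x⁻¹ ∈ Rw A F' hGF' := by
    rcases (Rw A F' hGF').mem_or_inv_mem x with h1 | h1
    · exact absurd h1 hnot
    · exact h1
  -- `x⁻¹` is a non-unit of `Rw'`
  have hred0 : redL A F' hGF' ⟨x⁻¹, hinv⟩ = 0 := by
    rw [redL_eq_zero_iff, IsLocalRing.mem_maximalIdeal, mem_nonunits_iff]
    intro hu
    obtain ⟨y, hy⟩ := hu.exists_right_inv
    have hy' : x⁻¹ * (y : F') = 1 := by
      have := congrArg (fun z : Rw A F' hGF' => (z : F')) hy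
      simpa using this
    have : (y : F') = x := by
      have h3 : x * (x⁻¹ * (y : F')) = x := by rw [hy', mul_one]
      rwa [← mul_assoc, mul_inv_cancel₀ hx0, one_mul] at h3
    exact hnot (this ▸ y.2)
  have hmapinv := h.redL_map hGF' hGF hmap ⟨x⁻¹, hinv⟩
  rw [hred0, map_zero] at hmapinv
  -- but `θ x * θ x⁻¹ = 1` in `Rw`
  have hprod : (⟨⟨θL (x : LaurentSeries L), hmap _ x.2⟩, hx⟩ : Rw A F hGF) *
      ⟨⟨θL (((x⁻¹ : F')) : LaurentSeries L), hmap _ (x⁻¹ : F').2⟩,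
        h.mem_Rw_map hGF' hGF hmap hinv⟩ = 1 := by
    apply Subtype.ext
    apply Subtype.ext
    show θL (x : LaurentSeries L) * θL ((x⁻¹ : F') : LaurentSeries L) = 1
    rw [← map_mul]
    have : (x : LaurentSeries L) * ((x⁻¹ : F') : LaurentSeries L) = 1 := by
      have h4 : x * x⁻¹ = 1 := mul_inv_cancel₀ hx0
      have := congrArg (fun z : F' => (z : LaurentSeries L)) h4
      simpa using this
    rw [this, map_one]
  have := congrArg (redL A F hGF) hprod
  rw [map_mul, hmapinv, mul_zero, map_one] at this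
  exact zero_ne_one this

theorem CoeffCompat.mem_Rw_map_iff (h : CoeffCompat A θL θA θk) (hmap : ∀ x ∈ F', θL x ∈ F)
    (x : F') :
    (⟨θL (x : LaurentSeries L), hmap _ x.2⟩ : F) ∈ Rw A F hGF ↔ x ∈ Rw A F' hGF' :=
  ⟨h.mem_Rw_of_map_mem hGF' hGF hmap, h.mem_Rw_map hGF' hGF hmap⟩

end Generic

/-! ### the degeneracy maps `α`, `β : ℚ̄(X₀(N')) → ℚ̄(X₀(N' ℓ))` -/

section Qbar

variable (N' ℓ : ℕ) [NeZero N'] [NeZero ℓ] (A : ValuationSubring (AlgebraicClosure ℚ))

local notation "Qb" => AlgebraicClosure ℚ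
local notation "kA" => IsLocalRing.ResidueField A

theorem alpha_map_mem : ∀ x ∈ modularFunctionFieldBar N',
    (RingHom.id (LaurentSeries Qb)) x ∈ modularFunctionFieldBar (N' * ℓ) :=
  fun x hx => (heckeAlphaBar Qb N' ℓ ⟨x, hx⟩).2

omit [NeZero N'] in
theorem beta_map_mem : ∀ x ∈ modularFunctionFieldBar N',
    qExpand Qb ℓ x ∈ modularFunctionFieldBar (N' * ℓ) :=
  fun x hx => (heckeBetaBar Qb N' ℓ ⟨x, hx⟩).2

/-- `w₁(α f) ≥ 0 ↔ w(f) ≥ 0`: the Gauss valuation of level `N' ℓ` restricts to the Gauss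
valuation of level `N'` -/
theorem alpha_mem_RwBar_iff (f : modularFunctionFieldBar N') :
    heckeAlphaBar Qb N' ℓ f ∈ RwBar (N' * ℓ) A ↔ f ∈ RwBar N' A :=
  (coeffCompat_id A).mem_Rw_map_iff (hasGaussFrac_bar N' A) (hasGaussFrac_bar (N' * ℓ) A)
    (alpha_map_mem N' ℓ) f

/-- `w₁(β f) ≥ 0 ↔ w(f) ≥ 0` -/
theorem beta_mem_RwBar_iff (f : modularFunctionFieldBar N') :
    heckeBetaBar Qb N' ℓ f ∈ RwBar (N' * ℓ) A ↔ f ∈ RwBar N' A :=
  (coeffCompat_qExpand A ℓ).mem_Rw_map_iff (hasGaussFrac_bar N' A) (hasGaussFrac_bar (N' * ℓ) A)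
    (beta_map_mem N' ℓ) f

/-- **`red₁ (α f) = f~`** (as Laurent series over the residue field) -/
theorem redL_alpha (f : RwBar N' A) (h : heckeAlphaBar Qb N' ℓ f ∈ RwBar (N' * ℓ) A) :
    redL A (modularFunctionFieldBar (N' * ℓ)) (hasGaussFrac_bar (N' * ℓ) A)
        ⟨heckeAlphaBar Qb N' ℓ f, h⟩ =
      redL A (modularFunctionFieldBar N') (hasGaussFrac_bar N' A) f :=
  (coeffCompat_id A).redL_map (hasGaussFrac_bar N' A) (hasGaussFrac_bar (N' * ℓ) A)
    (alpha_map_mem N' ℓ) f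

/-- **`red₁ (β f) = f~(Q^ℓ)`** (as Laurent series over the residue field) -/
theorem redL_beta (f : RwBar N' A) (h : heckeBetaBar Qb N' ℓ f ∈ RwBar (N' * ℓ) A) :
    redL A (modularFunctionFieldBar (N' * ℓ)) (hasGaussFrac_bar (N' * ℓ) A)
        ⟨heckeBetaBar Qb N' ℓ f, h⟩ =
      qExpand kA ℓ (redL A (modularFunctionFieldBar N') (hasGaussFrac_bar N' A) f) :=
  (coeffCompat_qExpand A ℓ).redL_map (hasGaussFrac_bar N' A) (hasGaussFrac_bar (N' * ℓ) A)
    (beta_map_mem N' ℓ) f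

/-- `RedData` form of `redL_alpha` -/
theorem coe_red_alpha (f : RwBar N' A) (h : heckeAlphaBar Qb N' ℓ f ∈ RwBar (N' * ℓ) A) :
    (((redDataBar (N' * ℓ) A).red ⟨heckeAlphaBar Qb N' ℓ f, h⟩ : FresBar (N' * ℓ) A) :
        LaurentSeries kA) = (((redDataBar N' A).red f : FresBar N' A) : LaurentSeries kA) :=
  redL_alpha N' ℓ A f h

/-- `RedData` form of `redL_beta` -/
theorem coe_red_beta (f : RwBar N' A) (h : heckeBetaBar Qb N' ℓ f ∈ RwBar (N' * ℓ) A) :
    (((redDataBar (N' * ℓ) A).red ⟨heckeBetaBar Qb N' ℓ f, h⟩ : FresBar (N' * ℓ) A) :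
        LaurentSeries kA) =
      qExpand kA ℓ (((redDataBar N' A).red f : FresBar N' A) : LaurentSeries kA) :=
  redL_beta N' ℓ A f h

/-- the residue field of level `N'` sits inside the residue field of level `N' ℓ` -/
theorem FresBar_le_mul : FresBar N' A ≤ FresBar (N' * ℓ) A := by
  rintro y ⟨x, rfl⟩
  exact ⟨⟨heckeAlphaBar Qb N' ℓ x, (alpha_mem_RwBar_iff N' ℓ A x).mpr x.2⟩,
    redL_alpha N' ℓ A x _⟩

/-- `y ↦ y(Q^ℓ)` maps the residue field of level `N'` into the residue field of level `N' ℓ` -/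
theorem qExpand_mem_FresBar_mul {y : LaurentSeries kA} (hy : y ∈ FresBar N' A) :
    qExpand kA ℓ y ∈ FresBar (N' * ℓ) A := by
  obtain ⟨x, rfl⟩ := hy
  exact ⟨⟨heckeBetaBar Qb N' ℓ x, (beta_mem_RwBar_iff N' ℓ A x).mpr x.2⟩,
    redL_beta N' ℓ A x _⟩

end Qbar

end Fermat.Agent.GK.QS
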