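import Fermat.Agent.GK.QS.BTilde
import Fermat.Agent.GK.Val.TwoVal
import Fermat.Agent.GK.Red.TwoRed
import Fermat.Agent.GK.Red.FrobChart
import Fermat.Agent.GK.Flat.BallTwo

/-!
# GATE-K / N6 K2'-QS, file 6 (helper15): `B~` is the FULL reduction of `B`

`ℓ ∥ N = N' ℓ`, `A` over `ℓ`.  With the notation of `BTilde.lean`:

* `FresBar_mul_eq` : the residue field of level `N' ℓ` IS the residue field of level `N'`
  (as subfields of `k((Q))`; helper45's K1 `TwoVal.degrees` + `Res.FresBar_eq_fullC`);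
* `cIncl : C →ₐ[k] FresBar (N' ℓ) A` the inclusion of the coordinate ring `C = CRing N' A`;
* `exists_cIncl_eq_red1`, `exists_cIncl_eq_red2` : **K-RED**: for `x ∈ Rw₁ ∩ Rw₂` integral over
  `ℚ̄[j]`, both reductions `red₁ x`, `red₂ x` lie in `C`
  (helper96's `redRegFinOn_ball2`; `red₂ j = j~ ^ ℓ` and `regFin_pow_iff`);
* `pair_mem_BT` : `z₁ z₂ : C` with `cIncl z₁ = red₁ x`, `cIncl z₂ = red₂ x` ⟹ `(z₁, z₂) ∈ B~`;
* **`exists_ideal_BT_full`** : `∃ J' ⊇ fixIdeal Ψ`, `B~ = gluedAlg Ψ J'`, and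
  `(z₁, z₂) ∈ gluedAlg Ψ J'` for all such pairs — for the chart hypotheses
  `RegFin ℚ̄ j x`, `x ∈ Lfib ℚ̄ j n` and `x ∈ Lfib ℚ̄ (j j_ℓ) n`
  (= `hB` of `GK/SS/ChartOfFrobGlue.lean`, helper47), together with the converse
  (every element of `gluedAlg Ψ J'` is the reduction of an element of `B`).
-/

set_option autoImplicit false
set_option linter.unusedSectionVars false

noncomputable section

namespace Fermat.Agent.GK.QS

open HahnSeries ModularCurve Fermat.Agent.S24 Fermat.Agent.GJ.J1 Fermat.Agent.GJ.J1.Val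
open Fermat.Agent.GJ.J1.Haupt Fermat.Agent.GJ.HN Fermat.Agent.GK.AL Fermat.Agent.GK.FrobGlue
open Fermat.Agent.GK.MultiVal Fermat.Agent.GK.Red Fermat.Agent.GK.Val Fermat.Agent.GK.Val.Degrees
open Fermat.Agent.GJ.J1.G1

variable (N' : ℕ) [NeZero N'] (ℓ : ℕ) [Fact ℓ.Prime] [NeZero ℓ]
variable (A : ValuationSubring Kbar) (h : ExactDvd ℓ (N' * ℓ))
variable (hℓN : ¬ ℓ ∣ N') (hA : A.LiesOverPrime ℓ)

local notation "kA" => IsLocalRing.ResidueField A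

include h hℓN hA in
/-- **RES**: the residue field of level `N' ℓ` is the residue field of level `N'` -/
theorem FresBar_mul_eq : FresBar (N' * ℓ) A = FresBar N' A :=
  ((TwoVal.degrees N' ℓ A h hℓN hA (isGaussChart_jF_1 (N' * ℓ) A).1
    (isGaussChart_jF_2 (N' * ℓ) A h).1).2.2.1).trans (Res.FresBar_eq_fullC N' A hℓN hA).symm

/-- the identification `FresBar (N' ℓ) A → FresBar N' A` -/
def resDown : FresBar (N' * ℓ) A →ₐ[kA] FresBar N' A :=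
  IntermediateField.inclusion (le_of_eq (FresBar_mul_eq N' ℓ A h hℓN hA))

/-- the identification `FresBar N' A → FresBar (N' ℓ) A` -/
def resUp : FresBar N' A →ₐ[kA] FresBar (N' * ℓ) A :=
  IntermediateField.inclusion (le_of_eq (FresBar_mul_eq N' ℓ A h hℓN hA).symm)

theorem coe_resDown (y : FresBar (N' * ℓ) A) :
    ((resDown N' ℓ A h hℓN hA y : FresBar N' A) : LaurentSeries kA) = (y : LaurentSeries kA) :=
  IntermediateField.coe_inclusion _ y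

theorem coe_resUp (y : FresBar N' A) :
    ((resUp N' ℓ A h hℓN hA y : FresBar (N' * ℓ) A) : LaurentSeries kA) = (y : LaurentSeries kA) :=
  IntermediateField.coe_inclusion _ y

theorem resUp_resDown (y : FresBar (N' * ℓ) A) :
    resUp N' ℓ A h hℓN hA (resDown N' ℓ A h hℓN hA y) = y :=
  Subtype.ext ((coe_resUp N' ℓ A h hℓN hA _).trans (coe_resDown N' ℓ A h hℓN hA y))

theorem resDown_resUp (y : FresBar N' A) :
    resDown N' ℓ A h hℓN hA (resUp N' ℓ A h hℓN hA y) = y :=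
  Subtype.ext ((coe_resDown N' ℓ A h hℓN hA _).trans (coe_resUp N' ℓ A h hℓN hA y))

/-- **the inclusion of the coordinate ring `C` in the residue field of level `N' ℓ`** -/
def cIncl : CRing N' A →ₐ[kA] FresBar (N' * ℓ) A :=
  (resUp N' ℓ A h hℓN hA).comp (CRing N' A).val

theorem coe_cIncl (c : CRing N' A) :
    ((cIncl N' ℓ A h hℓN hA c : FresBar (N' * ℓ) A) : LaurentSeries kA) = cVal N' A c :=
  coe_resUp N' ℓ A h hℓN hA (c : FresBar N' A)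

theorem cIncl_injective : Function.Injective (cIncl N' ℓ A h hℓN hA) := fun a b hab =>
  cVal_injective N' A (by
    rw [← coe_cIncl N' ℓ A h hℓN hA, ← coe_cIncl N' ℓ A h hℓN hA, hab])

/-- `resDown (red₁ j) = j~` -/
theorem resDown_red1_jF (hj : jF (N' * ℓ) ∈ (redDataBar (N' * ℓ) A).Rw) :
    resDown N' ℓ A h hℓN hA ((redDataBar (N' * ℓ) A).red ⟨jF (N' * ℓ), hj⟩) = jt N' A := by
  apply Subtype.ext
  rw [coe_resDown, coe_jt]
  exact coe_red_jF (N' * ℓ) A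

/-- `resDown (red₂ j) = j~ ^ ℓ` -/
theorem resDown_red2_jF (hj : jF (N' * ℓ) ∈ (redData2 (N' * ℓ) A h).Rw) :
    resDown N' ℓ A h hℓN hA ((redData2 (N' * ℓ) A h).red ⟨jF (N' * ℓ), hj⟩) = jt N' A ^ ℓ := by
  rw [← psiF_jt N' ℓ A hℓN hA]
  apply Subtype.ext
  rw [coe_resDown, coe_psiF, coe_jt,
    TwoVal.red2_jF N' ℓ A h hj (jdF_mem_Rw (N' * ℓ) A _), coe_red_jdF]

section KRed

variable {x : FN (N' * ℓ)} (hx : RegFin Kbar (jF (N' * ℓ)) x)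
  (h1 : x ∈ (redDataBar (N' * ℓ) A).Rw) (h2 : x ∈ (redData2 (N' * ℓ) A h).Rw)

include hx h2 in
/-- **K-RED, first component**: `red₁ x` is integral over `k[j~]` -/
theorem regFin_resDown_red1 :
    RegFin kA (jt N' A) (resDown N' ℓ A h hℓN hA ((redDataBar (N' * ℓ) A).red ⟨x, h1⟩)) := by
  have := Fermat.Agent.GJ.J1.Val.finiteDimensional_jF (N' * ℓ)
  have ht1 := isGaussChart_jF_1 (N' * ℓ) A
  have ht2 := isGaussChart_jF_2 (N' * ℓ) A h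
  have hG := redRegFinOn_ball2 (TwoVal.redCompat N' ℓ A h) (Rw1_ne_Rw2 (N' * ℓ) A h hA) ht1 ht2
    (TwoVal.degrees N' ℓ A h hℓN hA ht1.1 ht2.1).2.2.2.ge
  have hr := hG.1 ht1.1 x h1 (mem_ball2.mpr ⟨h1, h2⟩) hx
  refine RegFin.map_algHom (resDown N' ℓ A h hℓN hA) ?_ hr
  rw [resDown_red1_jF]
  exact regFin_self _

include hx h1 in
/-- **K-RED, second component**: `red₂ x` is integral over `k[j~]` -/
theorem regFin_resDown_red2 :
    RegFin kA (jt N' A) (resDown N' ℓ A h hℓN hA ((redData2 (N' * ℓ) A h).red ⟨x, h2⟩)) := by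
  have := Fermat.Agent.GJ.J1.Val.finiteDimensional_jF (N' * ℓ)
  have ht1 := isGaussChart_jF_1 (N' * ℓ) A
  have ht2 := isGaussChart_jF_2 (N' * ℓ) A h
  have hG := redRegFinOn_ball2 (TwoVal.redCompat N' ℓ A h) (Rw1_ne_Rw2 (N' * ℓ) A h hA) ht1 ht2
    (TwoVal.degrees N' ℓ A h hℓN hA ht1.1 ht2.1).2.2.2.ge
  have hr := hG.2 ht2.1 x h2 (mem_ball2.mpr ⟨h1, h2⟩) hx
  have hℓpos : 0 < ℓ := Nat.pos_of_ne_zero (NeZero.ne ℓ)
  rw [← regFin_pow_iff hℓpos]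
  refine RegFin.map_algHom (resDown N' ℓ A h hℓN hA) ?_ hr
  rw [resDown_red2_jF]
  exact regFin_self _

include hx h2 in
/-- `red₁ x ∈ C` -/
theorem exists_cIncl_eq_red1 :
    ∃ c : CRing N' A, cIncl N' ℓ A h hℓN hA c = (redDataBar (N' * ℓ) A).red ⟨x, h1⟩ :=
  ⟨⟨_, regFin_resDown_red1 N' ℓ A h hℓN hA hx h1 h2⟩, resUp_resDown N' ℓ A h hℓN hA _⟩

include hx h1 in
/-- `red₂ x ∈ C` -/
theorem exists_cIncl_eq_red2 :
    ∃ c : CRing N' A, cIncl N' ℓ A h hℓN hA c = (redData2 (N' * ℓ) A h).red ⟨x, h2⟩ :=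
  ⟨⟨_, regFin_resDown_red2 N' ℓ A h hℓN hA hx h1 h2⟩, resUp_resDown N' ℓ A h hℓN hA _⟩

include hx in
/-- a pair of elements of `C` representing `(red₁ x, red₂ x)` lies in `B~` -/
theorem pair_mem_BT {z1 z2 : CRing N' A}
    (e1 : cIncl N' ℓ A h hℓN hA z1 = (redDataBar (N' * ℓ) A).red ⟨x, h1⟩)
    (e2 : cIncl N' ℓ A h hℓN hA z2 = (redData2 (N' * ℓ) A h).red ⟨x, h2⟩) :
    (z1, z2) ∈ BT N' ℓ A h := by
  rw [mem_BT]
  refine ⟨⟨x, hx, h1, h2⟩, ?_, ?_⟩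
  · rw [rho1_apply, ← coe_cIncl N' ℓ A h hℓN hA, e1]
  · rw [rho2_apply, ← coe_cIncl N' ℓ A h hℓN hA, e2]

end KRed

include hℓN hA in
/-- **every element of `B` reduces into `B~`** -/
theorem exists_mem_BT_of_mem_BRing (x : BRing N' ℓ A h) :
    ∃ z ∈ BT N' ℓ A h, rho1 N' ℓ A h x = cVal N' A z.1 ∧ rho2 N' ℓ A h x = cVal N' A z.2 := by
  obtain ⟨z1, e1⟩ := exists_cIncl_eq_red1 N' ℓ A h hℓN hA x.2.1 x.2.2.1 x.2.2.2
  obtain ⟨z2, e2⟩ := exists_cIncl_eq_red2 N' ℓ A h hℓN hA x.2.1 x.2.2.1 x.2.2.2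
  refine ⟨(z1, z2), pair_mem_BT N' ℓ A h hℓN hA x.2.1 x.2.2.1 x.2.2.2 e1 e2, ?_, ?_⟩
  · rw [rho1_apply, ← coe_cIncl N' ℓ A h hℓN hA, e1]
  · rw [rho2_apply, ← coe_cIncl N' ℓ A h hℓN hA, e2]

section Main

variable (h2 : ℓ = 2 → 3 ∣ N') (h3 : ℓ = 3 → 2 ∣ N')
include h2 h3

/-- **N6, final form**: there is ONE ideal `J' ⊇ (a - Ψ² a : a ∈ C)` of the coordinate ring `C`
of the affine special fibre of level `N'` such that
* `B~ = gluedAlg Ψ J' = {(g, h) ∈ C × C | g - Ψ h ∈ J'}`;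
* for every `x ∈ Rw₁ ∩ Rw₂` integral over `ℚ̄[j]`, every pair `(z₁, z₂)` of elements of `C`
  representing `(red₁ x, red₂ x)` lies in `gluedAlg Ψ J'` (and such pairs exist);
* conversely every element of `gluedAlg Ψ J'` is `(red₁ x, red₂ x)` for some such `x`. -/
theorem exists_ideal_BT_full :
    ∃ J' : Ideal (CRing N' A), fixIdeal (psiC N' ℓ A hℓN hA) ≤ J' ∧
      BT N' ℓ A h = gluedAlg (psiC N' ℓ A hℓN hA) J' ∧
      (∀ (x : FN (N' * ℓ)) (h1 : x ∈ (redDataBar (N' * ℓ) A).Rw)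
        (h2 : x ∈ (redData2 (N' * ℓ) A h).Rw), RegFin Kbar (jF (N' * ℓ)) x →
        ∀ z1 z2 : CRing N' A,
          cIncl N' ℓ A h hℓN hA z1 = (redDataBar (N' * ℓ) A).red ⟨x, h1⟩ →
          cIncl N' ℓ A h hℓN hA z2 = (redData2 (N' * ℓ) A h).red ⟨x, h2⟩ →
          (z1, z2) ∈ gluedAlg (psiC N' ℓ A hℓN hA) J') ∧
      (∀ z ∈ gluedAlg (psiC N' ℓ A hℓN hA) J', ∃ (x : FN (N' * ℓ))
        (h1 : x ∈ (redDataBar (N' * ℓ) A).Rw) (h2 : x ∈ (redData2 (N' * ℓ) A h).Rw),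
        RegFin Kbar (jF (N' * ℓ)) x ∧
          cIncl N' ℓ A h hℓN hA z.1 = (redDataBar (N' * ℓ) A).red ⟨x, h1⟩ ∧
          cIncl N' ℓ A h hℓN hA z.2 = (redData2 (N' * ℓ) A h).red ⟨x, h2⟩) := by
  obtain ⟨J', hJ, hBT⟩ := exists_ideal_BT N' ℓ A h hℓN hA h2 h3
  refine ⟨J', hJ, hBT, ?_, ?_⟩
  · intro x h1 h2 hx z1 z2 e1 e2
    rw [← hBT]
    exact pair_mem_BT N' ℓ A h hℓN hA hx h1 h2 e1 e2
  · intro z hz
    have hz' : z ∈ BT N' ℓ A h := by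
      rw [hBT]
      exact hz
    have hex := (mem_BT N' ℓ A h).mp hz'
    cases hex with
    | intro x hx =>
      refine ⟨x.1, x.2.2.1, x.2.2.2, x.2.1, ?_, ?_⟩
      · exact Subtype.ext ((coe_cIncl N' ℓ A h hℓN hA z.1).trans
          (hx.1.symm.trans (rho1_apply N' ℓ A h x)))
      · exact Subtype.ext ((coe_cIncl N' ℓ A h hℓN hA z.2).trans
          (hx.2.symm.trans (rho2_apply N' ℓ A h x)))

/-- **`hB` of `GK/SS/ChartOfFrobGlue.lean` for the chart `t = j`** -/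
theorem exists_ideal_hB_jF :
    ∃ J' : Ideal (CRing N' A), fixIdeal (psiC N' ℓ A hℓN hA) ≤ J' ∧
      BT N' ℓ A h = gluedAlg (psiC N' ℓ A hℓN hA) J' ∧
      ∀ (n : ℕ) (x : FN (N' * ℓ)) (h1 : x ∈ (redDataBar (N' * ℓ) A).Rw)
        (h2 : x ∈ (redData2 (N' * ℓ) A h).Rw), x ∈ Lfib Kbar (jF (N' * ℓ)) (n : ℤ) →
        ∀ z1 z2 : CRing N' A,
          cIncl N' ℓ A h hℓN hA z1 = (redDataBar (N' * ℓ) A).red ⟨x, h1⟩ →
          cIncl N' ℓ A h hℓN hA z2 = (redData2 (N' * ℓ) A h).red ⟨x, h2⟩ →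
          (z1, z2) ∈ gluedAlg (psiC N' ℓ A hℓN hA) J' := by
  obtain ⟨J', hJ, hBT, hB, -⟩ := exists_ideal_BT_full N' ℓ A h hℓN hA h2 h3
  exact ⟨J', hJ, hBT, fun n x h1 h2 hx =>
    hB x h1 h2 (mem_Lfib_iff_of_isAlgClosed.mp hx).1⟩

/-- **`hB` of `GK/SS/ChartOfFrobGlue.lean` for the symmetric chart `t = j j_ℓ`** -/
theorem exists_ideal_hB_sym :
    ∃ J' : Ideal (CRing N' A), fixIdeal (psiC N' ℓ A hℓN hA) ≤ J' ∧
      BT N' ℓ A h = gluedAlg (psiC N' ℓ A hℓN hA) J' ∧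
      ∀ (n : ℕ) (x : FN (N' * ℓ)) (h1 : x ∈ (redDataBar (N' * ℓ) A).Rw)
        (h2 : x ∈ (redData2 (N' * ℓ) A h).Rw),
        x ∈ Lfib Kbar (jF (N' * ℓ) * jdF (N' * ℓ) ℓ h.dvd) (n : ℤ) →
        ∀ z1 z2 : CRing N' A,
          cIncl N' ℓ A h hℓN hA z1 = (redDataBar (N' * ℓ) A).red ⟨x, h1⟩ →
          cIncl N' ℓ A h hℓN hA z2 = (redData2 (N' * ℓ) A h).red ⟨x, h2⟩ →
          (z1, z2) ∈ gluedAlg (psiC N' ℓ A hℓN hA) J' := by
  obtain ⟨J', hJ, hBT, hB, -⟩ := exists_ideal_BT_full N' ℓ A h hℓN hA h2 h3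
  exact ⟨J', hJ, hBT, fun n x h1 h2 hx =>
    hB x h1 h2 ((Fermat.Agent.GK.BallTwo.regFin_sym_iff (N' * ℓ) h.prime h.dvd).mp
      (mem_Lfib_iff_of_isAlgClosed.mp hx).1)⟩

end Main

end Fermat.Agent.GK.QS
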