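import Fermat.Agent.S24_helper62.CuspEmb
import Fermat.Agent.GJ.J1.Defs
import Fermat.Agent.GJ.HN.NormMer

/-!
# GATE-K / N6 K2'-QS, file 4 (helper15): old functions are regular off the cusps

* `regFin_of_isIntegral_of_forall` : transitivity of `RegFin` (integrality over `K[s]`);
* `RegFin.map_algHom` : `φ : F' →ₐ[K] F`, `φ s'` integral over `K[s]`, `x` integral over `K[s']`
  ⟹ `φ x` integral over `K[s]`;
* `regFin_of_mem_RN` : **every element of `ℚ̄[j(q^d) : d ∣ N]` is integral over `ℚ̄[j]`** (from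
  T24's cusp embeddings: `∏_q (X - σ_q a)` is monic with coefficients in `ℚ̄[j]`);
* `regFin_jdF`, and for the degeneracy maps `α, β : F_{N'} → F_{N' ℓ}`:
  `regFin_alphaB`, `regFin_betaB` : `f` integral over `ℚ̄[j]` ⟹ `α f`, `β f` integral over `ℚ̄[j]`.
-/

set_option autoImplicit false

noncomputable section

namespace Fermat.Agent.GK.QS

open Polynomial ModularCurve Fermat.Agent.S24 Fermat.Agent.S24_helper62 Fermat.Agent.GJ.J1
open Fermat.Agent.GJ.HN

section Generic

variable {K F F' : Type*} [Field K] [Field F] [Algebra K F] [Field F'] [Algebra K F']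

/-- integrality over a subalgebra all of whose elements are integral over `K[s]` -/
theorem regFin_of_isIntegral_of_forall {s x : F} (S : Subalgebra K F)
    (hS : ∀ z ∈ S, RegFin K s z) (hx : IsIntegral S x) : RegFin K s x := by
  let θ : S →+* integralClosure (Algebra.adjoin K {s}) F :=
    { toFun := fun z => ⟨(z : F), hS z z.2⟩
      map_one' := rfl
      map_mul' := fun _ _ => rfl
      map_zero' := rfl
      map_add' := fun _ _ => rfl }
  have h1 : IsIntegral (integralClosure (Algebra.adjoin K {s}) F) x := by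
    have := IsIntegral.map_of_comp_eq θ (RingHom.id F) (RingHom.ext fun _ => rfl) hx
    simpa using this
  exact isIntegral_trans x h1

/-- `RegFin` along an algebra homomorphism -/
theorem RegFin.map_algHom (φ : F' →ₐ[K] F) {s' x : F'} {s : F} (hs : RegFin K s (φ s'))
    (hx : RegFin K s' x) : RegFin K s (φ x) := by
  -- `φ x` is integral over `K[φ s']`
  have hmaps : ∀ z : Algebra.adjoin K {s'}, φ (z : F') ∈ Algebra.adjoin K {φ s'} := by
    rintro ⟨z, hz⟩
    have h1 : φ z ∈ (Algebra.adjoin K {s'}).map φ := ⟨z, hz, rfl⟩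
    rwa [AlgHom.map_adjoin, Set.image_singleton] at h1
  let θ : Algebra.adjoin K {s'} →+* Algebra.adjoin K {φ s'} :=
    (φ.toRingHom.comp (Algebra.adjoin K {s'}).val.toRingHom).codRestrict
      (Algebra.adjoin K {φ s'}).toSubring hmaps
  have h2 : IsIntegral (Algebra.adjoin K {φ s'}) (φ x) :=
    IsIntegral.map_of_comp_eq θ φ.toRingHom (RingHom.ext fun _ => rfl) hx
  refine regFin_of_isIntegral_of_forall (Algebra.adjoin K {φ s'}) ?_ h2
  intro z hz
  induction hz using Algebra.adjoin_induction with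
  | mem y hy => rw [Set.mem_singleton_iff.mp hy]; exact hs
  | algebraMap c => exact regFin_algebraMap s c
  | add y z _ _ hy hz => exact hy.add hz
  | mul y z _ _ hy hz => exact hy.mul hz

end Generic

section Modular

variable (N : ℕ) [NeZero N]

/-- **every element of `ℚ̄[j(q^d) : d ∣ N]` is integral over `ℚ̄[j]`** -/
theorem regFin_of_mem_RN {a : FN N} (ha : a ∈ Degree.RN N) : RegFin Kbar (jF N) a := by
  classical
  set σ : FN N →ₐ[Kbar] LaurentSeries Kbar := cuspSigma N (Degree.i0 N) with hσ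
  let θ : Algebra.adjoin Kbar {jF N} →+* LaurentSeries Kbar :=
    σ.toRingHom.comp (algebraMap (Algebra.adjoin Kbar {jF N}) (FN N))
  set P : (LaurentSeries Kbar)[X] := ∏ q : I0 N, (X - C (cuspSigma N q a)) with hP
  have hmonic : P.Monic := monic_prod_X_sub_C _ _
  have hlifts : P ∈ Polynomial.lifts θ := by
    rw [Polynomial.lifts_iff_coeff_lifts]
    intro m
    obtain ⟨p, hp⟩ := Degree.exists_poly_of_mem_image (cuspSigma_sym N a ha m)
    refine ⟨⟨aeval (jF N) p, ?_⟩, ?_⟩
    · rw [Algebra.adjoin_singleton_eq_range_aeval]; exact ⟨p, rfl⟩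
    · show σ (aeval (jF N) p) = P.coeff m
      rw [← Polynomial.aeval_algHom_apply σ (jF N) p, hσ, cuspSigma_jF, hp]
  obtain ⟨Q, hQmap, -, hQmonic⟩ := Polynomial.lifts_and_degree_eq_and_monic hlifts hmonic
  refine ⟨Q, hQmonic, ?_⟩
  apply σ.toRingHom.injective
  rw [map_zero, Polynomial.hom_eval₂]
  show Polynomial.eval₂ θ (σ a) Q = 0
  rw [← Polynomial.eval_map, hQmap, hP, Polynomial.eval_prod]
  exact Finset.prod_eq_zero (Finset.mem_univ (Degree.i0 N)) (by simp [hσ])

/-- `j(q^d)` is integral over `ℚ̄[j]` -/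
theorem regFin_jdF {d : ℕ} [NeZero d] (hd : d ∣ N) : RegFin Kbar (jF N) (jdF N d hd) :=
  regFin_of_mem_RN N (Degree.genSet_subset_RN N (Degree.jdF_mem_genSet N d hd))

variable (N' ℓ : ℕ) [NeZero N'] [NeZero ℓ]

/-- `f` regular off the cusps ⟹ `α f` regular off the cusps -/
theorem regFin_alphaB {f : FN N'} (hf : RegFin Kbar (jF N') f) :
    RegFin Kbar (jF (N' * ℓ)) (alphaB N' ℓ f) :=
  RegFin.map_algHom (alphaB N' ℓ) (by rw [alphaB_jF]; exact regFin_self _) hf

/-- `f` regular off the cusps ⟹ `β f = f(q^ℓ)` regular off the cusps -/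
theorem regFin_betaB {f : FN N'} (hf : RegFin Kbar (jF N') f) :
    RegFin Kbar (jF (N' * ℓ)) (betaB N' ℓ f) := by
  refine RegFin.map_algHom (betaB N' ℓ) ?_ hf
  show RegFin Kbar (jF (N' * ℓ)) (betaB N' ℓ (jdF N' 1 (one_dvd N')))
  rw [betaB_jdF]
  exact regFin_jdF (N' * ℓ) _

end Modular

end Fermat.Agent.GK.QS
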