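import Fermat.Agent.GJ.S37.LSpaceGateBar
import Fermat.Agent.GJ.J1.GenusEq
import Fermat.Agent.GJ.J1.GenusBridge
import Fermat.Agent.GJ.J1.Gauss.ChartsBar

/-!
# GATE-K / N6 K2'-QS, file 3 (helper15): reduction is ONTO the coordinate ring at the good level

Abstract: `R : RedData K F k Ft` with the L-space hypotheses `LSpaceHyp R g c` of the S37 path
(Riemann on both fibres with ONE genus + ORTH), `t` a chart with `RedRegFin t`, `RedRegFin t⁻¹`
and `[F : K(t)] = [Ft : k(t~)]`.  Then for `n` large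

  `red (Lfib K t n ∩ Rw) = Lfib k t~ n`        (`redSpace_nsmul_poleDiv_eq_Lfib`)

(containment by `G0Genus.red_mem_Lfib`, equality by the dimension count), hence every `y ∈ Ft`
integral over `k[t~]` is the reduction of some `x ∈ Rw` integral over `K[t]`
(`exists_lift_of_regFin`).

Concrete (`exists_lift_bar`): level `N'`, `ℓ ∤ N'` (and `3 ∣ N'` if `ℓ = 2`, `2 ∣ N'` if `ℓ = 3`,
the side conditions of J1), `A` over `ℓ`: every element of the integral closure of `k[j~]` in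
`FresBar N' A` is the reduction of an element of `RwBar N' A` integral over `ℚ̄[j]`.
-/

set_option autoImplicit false
set_option linter.unusedSectionVars false

noncomputable section

open Polynomial IntermediateField AlgebraicCurve Module

namespace Fermat.Agent.GK.QS

open Fermat.Agent.S24 Fermat.Agent.RRh45 Fermat.Agent.GJ.J1 Fermat.Agent.GJ.J1.InstGen
open Fermat.Agent.GJ.S37LSpace Fermat.Agent.GJ.J1.G0Genus

section Abstract

variable {K F k Ft : Type*} [Field K] [Field F] [Algebra K F] [Field k] [Field Ft] [Algebra k Ft]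
variable [IsAlgClosed K] [IsAlgClosed k]
variable [FiniteResidues K F] [HasPrincipalDivisors K F] [Nonempty (Place K F)]
variable [FiniteResidues k Ft] [HasPrincipalDivisors k Ft] [Nonempty (Place k Ft)]

/-- **for `n` large the reduction of `Lfib K t n ∩ Rw` is all of `Lfib k t~ n`.** -/
theorem redSpace_nsmul_poleDiv_eq_Lfib (R : RedData K F k Ft) {g c : ℤ} (H : LSpaceHyp R g c)
    {t : F} [IsGen K t] (ht : t ∈ R.Rw) (hti : t⁻¹ ∈ R.Rw) [IsGen k (R.red ⟨t, ht⟩)]
    (hG : R.RedRegFin t) (hGi : R.RedRegFin t⁻¹)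
    (hdeg : finrank K⟮t⟯ F = finrank k⟮R.red ⟨t, ht⟩⟯ Ft) (n : ℕ) (hn : c.toNat ≤ n) :
    redSpace R (n • Fermat.Agent.RR.Bound.poleDiv K t) = Lfib k (R.red ⟨t, ht⟩) (n : ℤ) := by
  have htK : Transcendental K t := IsGen.transcendental
  have ht0 : t ≠ 0 := fun h0 => htK (h0 ▸ isAlgebraic_zero)
  set D : Divisor K F := n • Fermat.Agent.RR.Bound.poleDiv K t with hD
  set E : Divisor k Ft := n • Fermat.Agent.RR.Bound.poleDiv k (R.red ⟨t, ht⟩) with hE
  have hDdeg : c ≤ Divisor.degree D := le_degree_nsmul_poleDiv t c n hn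
  have hEdeg : c ≤ Divisor.degree E := le_degree_nsmul_poleDiv (R.red ⟨t, ht⟩) c n hn
  have hD0 : 0 ≤ D := by
    rw [hD]
    exact nsmul_nonneg (by rw [Fermat.Agent.RR.Bound.poleDiv]; exact le_sup_right) n
  -- containment
  have hle : redSpace R D ≤ Lfib k (R.red ⟨t, ht⟩) (n : ℤ) := by
    rintro _ ⟨x, hx, rfl⟩
    rw [hD, ← Lfib_natCast_eq_poleDiv t n] at hx
    exact red_mem_Lfib R ht hti ht0 hG hGi n hx x.2
  -- dimensions
  have h1 : (finrank k (redSpace R D) : ℤ) = Divisor.degree D + 1 - g := by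
    rw [H.orth D hD0, H.rrF D hDdeg]
  have h2 : (finrank k (Lfib k (R.red ⟨t, ht⟩) (n : ℤ)) : ℤ) = Divisor.degree E + 1 - g := by
    rw [Lfib_natCast_eq_poleDiv (R.red ⟨t, ht⟩) n, H.rrFt E hEdeg]
  have h3 : Divisor.degree D = Divisor.degree E := by
    rw [hD, hE, degree_nsmul_poleDiv, degree_nsmul_poleDiv, hdeg]
  have hfd : FiniteDimensional k (Lfib k (R.red ⟨t, ht⟩) (n : ℤ)) := by
    rw [Lfib_natCast_eq_poleDiv (R.red ⟨t, ht⟩) n]
    infer_instance
  refine Submodule.eq_of_le_of_finrank_eq hle ?_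
  have : (finrank k (redSpace R D) : ℤ) = finrank k (Lfib k (R.red ⟨t, ht⟩) (n : ℤ)) := by
    rw [h1, h2, h3]
  exact_mod_cast this

/-- **reduction is onto the integral closure**: every `y` integral over `k[t~]` is the reduction
of some `x ∈ Rw` integral over `K[t]`. -/
theorem exists_lift_of_regFin (R : RedData K F k Ft) {g c : ℤ} (H : LSpaceHyp R g c)
    {t : F} [IsGen K t] (ht : t ∈ R.Rw) (hti : t⁻¹ ∈ R.Rw) [IsGen k (R.red ⟨t, ht⟩)]
    (hG : R.RedRegFin t) (hGi : R.RedRegFin t⁻¹)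
    (hdeg : finrank K⟮t⟯ F = finrank k⟮R.red ⟨t, ht⟩⟯ Ft)
    {y : Ft} (hy : RegFin k (R.red ⟨t, ht⟩) y) :
    ∃ (x : F) (hx : x ∈ R.Rw), RegFin K t x ∧ R.red ⟨x, hx⟩ = y := by
  have htrk : Transcendental k (R.red ⟨t, ht⟩) := IsGen.transcendental
  have ht0k : R.red ⟨t, ht⟩ ≠ 0 := fun h0 => htrk (h0 ▸ isAlgebraic_zero)
  obtain ⟨N0, hN0⟩ := exists_regFin_inv_pow_mul ht0k hy
  set n : ℕ := max N0 c.toNat with hn
  have hyL : y ∈ Lfib k (R.red ⟨t, ht⟩) (n : ℤ) := by
    rw [G1.mem_Lfib_iff_of_isAlgClosed, zpow_natCast]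
    exact ⟨hy, (hN0 n (le_max_left _ _)).regOver⟩
  rw [← redSpace_nsmul_poleDiv_eq_Lfib R H ht hti hG hGi hdeg n (le_max_right _ _)] at hyL
  obtain ⟨x, hx, rfl⟩ := hyL
  rw [← Lfib_natCast_eq_poleDiv t n, G1.mem_Lfib_iff_of_isAlgClosed] at hx
  exact ⟨x, x.2, hx.1, rfl⟩

end Abstract

/-! ### the concrete datum `redDataBar N' A` at a good level -/

section Concrete

open ModularCurve Fermat.Agent.GJ.J1.Val Fermat.Agent.GJ.J1.Haupt

variable (N' : ℕ) [NeZero N'] {ℓ : ℕ} [Fact ℓ.Prime] (A : ValuationSubring Kbar)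

local notation "kA" => IsLocalRing.ResidueField A

/-- **surjectivity of the reduction on coordinate rings at the good level `N'`**: every element of
`FresBar N' A` integral over `k[j~]` is the reduction of an element of the Gauss valuation ring
integral over `ℚ̄[j]`. -/
theorem exists_lift_bar (hℓN : ¬ ℓ ∣ N') (hA : A.LiesOverPrime ℓ)
    (h2 : ℓ = 2 → 3 ∣ N') (h3 : ℓ = 3 → 2 ∣ N') {y : FresBar N' A}
    (hy : RegFin kA ((redDataBar N' A).red ⟨jF N', jF_mem_Rw N' A⟩) y) :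
    ∃ (x : FN N') (hx : x ∈ RwBar N' A), RegFin Kbar (jF N') x ∧
      (redDataBar N' A).red ⟨x, hx⟩ = y := by
  have hℓ : ℓ.Prime := Fact.out
  obtain ⟨g, c, H⟩ := Fermat.Agent.GJ.S37LSpaceGateBar.lSpaceGate N' hℓ hℓN h2 h3 A hA
  have hgc := isGaussChart_jF N' A
  have hdegle := Fermat.Agent.GJ.J1.K18Modular.hdeg_jF N' A hℓN hA
  have hgenK : IsGen Kbar (jF N') := Fermat.Agent.S24_helper62.isGen_jF N'
  obtain ⟨hfdk, hdeg⟩ := finrank_eq_of_le (redDataBar N' A) (jF_mem_Rw N' A) hgc.2 hdegle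
  have hgenk : IsGen kA ((redDataBar N' A).red ⟨jF N', jF_mem_Rw N' A⟩) := ⟨hgc.2, hfdk⟩
  have hac : IsAlgClosed kA := Fermat.Agent.GJ.ResidueAlgClosed.isAlgClosed_residueField A
  have hFR : FiniteResidues Kbar (FN N') := Fermat.Agent.GJ.FF.finiteResidues (jF N')
  have hPD : HasPrincipalDivisors Kbar (FN N') :=
    Fermat.Agent.GJ.FF.PrincipalOf.hasPrincipalDivisors_gen (jF N')
  have hNE : Nonempty (Place Kbar (FN N')) := Fermat.Agent.GJ.FF.nonempty_place (jF N')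
  have hFRk : FiniteResidues kA (FresBar N' A) :=
    Fermat.Agent.GJ.FF.finiteResidues ((redDataBar N' A).red ⟨jF N', jF_mem_Rw N' A⟩)
  have hPDk : HasPrincipalDivisors kA (FresBar N' A) :=
    Fermat.Agent.GJ.FF.PrincipalOf.hasPrincipalDivisors_gen
      ((redDataBar N' A).red ⟨jF N', jF_mem_Rw N' A⟩)
  have hNEk : Nonempty (Place kA (FresBar N' A)) :=
    Fermat.Agent.GJ.FF.nonempty_place ((redDataBar N' A).red ⟨jF N', jF_mem_Rw N' A⟩)
  have hti : (jF N')⁻¹ ∈ (redDataBar N' A).Rw := (Select.isGaussChart_inv hgc).fst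
  obtain ⟨hG, hGi⟩ := Fermat.Agent.GJ.Gauss.redRegFin_jF N' hℓN A hA
  exact exists_lift_of_regFin (redDataBar N' A) H (jF_mem_Rw N' A) hti hG hGi hdeg hy

end Concrete

end Fermat.Agent.GK.QS
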