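import Fermat.Agent.GK.QS.FrobStable
import Fermat.Agent.GK.QS.SurjC
import Fermat.Agent.GK.QS.IntRN
import Fermat.Agent.GK.AL.SecondVal
import Fermat.Agent.GK.AL.WRealize
import Fermat.Agent.GK.Nodal.FrobGlue

/-!
# GATE-K / N6 K2'-QS, file 5 (helper15): the special fibre `B~` is a Frobenius glueing

`ℓ ∥ N = N' ℓ`, `A` a valuation subring of `ℚ̄` over `ℓ`, `k` its residue field,
`R₁ = redDataBar N A` (Gauss valuation `w₁`), `R₂ = redData2 N A h` (`w₂ = w₁ ∘ W_ℓ`, helper42),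
`C = CRing N' A` the coordinate ring of the affine special fibre of level `N'`,
`Ψ = psiC : C →ₐ[k] C`, `y(Q) ↦ y(Q^ℓ)`.

* `BRing` : the ring `B = {x ∈ F_N | x integral over ℚ̄[j], w₁ x ≥ 0, w₂ x ≥ 0}`;
* `alphaB_mem_BRing`, `betaB_mem_BRing` : old functions lie in `B`;
* `rho1`, `rho2 : B →+* k((Q))` : the two reductions `red₁`, `red₂ = red₁ ∘ W_ℓ` on `B`;
* `BT : Subalgebra k (C × C)` : the pairs `(red₁ x, red₂ x)`, `x ∈ B`, that lie in `C × C`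
  (equalities of Laurent series over `k`; by K1/K-RED every `x ∈ B` gives such a pair);
* `left_mem_BT : (a, Ψ a) ∈ BT`, `right_mem_BT : (Ψ b, b) ∈ BT` for ALL `a b : C`
  (reduction of `α f`, `β f`, `f` a lift of `a`, `b` by J1-SURJ `exists_lift_bar`);
* **`exists_ideal_BT`** : `∃ J' ⊇ fixIdeal Ψ, BT = gluedAlg Ψ J'` (helper29's FrobGlue).
-/

set_option autoImplicit false
set_option linter.unusedSectionVars false

noncomputable section

namespace Fermat.Agent.GK.QS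

open HahnSeries ModularCurve Fermat.Agent.S24 Fermat.Agent.GJ.J1 Fermat.Agent.GJ.J1.Val
open Fermat.Agent.GJ.J1.Haupt Fermat.Agent.GJ.HN Fermat.Agent.GK.AL Fermat.Agent.GK.FrobGlue

variable (N' : ℕ) [NeZero N'] (ℓ : ℕ) [Fact ℓ.Prime] [NeZero ℓ]
variable (A : ValuationSubring Kbar) (h : ExactDvd ℓ (N' * ℓ))

local notation "kA" => IsLocalRing.ResidueField A

/-- **the ring `B`** of functions regular off the cusps with `w₁ ≥ 0` and `w₂ ≥ 0` -/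
def BRing : Subring (FN (N' * ℓ)) where
  carrier := {x | RegFin Kbar (jF (N' * ℓ)) x ∧ x ∈ (redDataBar (N' * ℓ) A).Rw ∧
    x ∈ (redData2 (N' * ℓ) A h).Rw}
  mul_mem' := fun ⟨a1, a2, a3⟩ ⟨b1, b2, b3⟩ => ⟨a1.mul b1, mul_mem a2 b2, mul_mem a3 b3⟩
  one_mem' := ⟨regFin_one _, one_mem _, one_mem _⟩
  add_mem' := fun ⟨a1, a2, a3⟩ ⟨b1, b2, b3⟩ => ⟨a1.add b1, add_mem a2 b2, add_mem a3 b3⟩
  zero_mem' := ⟨regFin_zero _, zero_mem _, zero_mem _⟩
  neg_mem' := fun ⟨a1, a2, a3⟩ => ⟨a1.neg, neg_mem a2, neg_mem a3⟩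

variable {N' ℓ A h}

theorem mem_BRing {x : FN (N' * ℓ)} :
    x ∈ BRing N' ℓ A h ↔ RegFin Kbar (jF (N' * ℓ)) x ∧ x ∈ (redDataBar (N' * ℓ) A).Rw ∧
      x ∈ (redData2 (N' * ℓ) A h).Rw := Iff.rfl

/-- constants of `A` lie in `B` -/
theorem algebraMap_mem_BRing (a : A) : algebraMap Kbar (FN (N' * ℓ)) (a : Kbar) ∈ BRing N' ℓ A h :=
  ⟨regFin_algebraMap _ _, ((redDataBar (N' * ℓ) A).mem_A_iff a).1 a.2,
    ((redData2 (N' * ℓ) A h).mem_A_iff a).1 a.2⟩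

/-- `α f ∈ B` for `f` regular off the cusps with `w f ≥ 0` -/
theorem alphaB_mem_BRing {f : FN N'} (hf : RegFin Kbar (jF N') f) (hw : f ∈ RwBar N' A) :
    alphaB N' ℓ f ∈ BRing N' ℓ A h := by
  refine ⟨regFin_alphaB N' ℓ hf, (alpha_mem_RwBar_iff N' ℓ A f).mpr hw, ?_⟩
  rw [mem_Rw2_iff, wAut_alphaB]
  exact (beta_mem_RwBar_iff N' ℓ A f).mpr hw

/-- `β f ∈ B` for `f` regular off the cusps with `w f ≥ 0` -/
theorem betaB_mem_BRing {f : FN N'} (hf : RegFin Kbar (jF N') f) (hw : f ∈ RwBar N' A) :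
    betaB N' ℓ f ∈ BRing N' ℓ A h := by
  refine ⟨regFin_betaB N' ℓ hf, (beta_mem_RwBar_iff N' ℓ A f).mpr hw, ?_⟩
  rw [mem_Rw2_iff, wAut_betaB]
  exact (alpha_mem_RwBar_iff N' ℓ A f).mpr hw

/-- `red₂ (α f) = red₁ (β f)` -/
theorem red2_alphaB (f : FN N') (hx : alphaB N' ℓ f ∈ (redData2 (N' * ℓ) A h).Rw)
    (hx' : betaB N' ℓ f ∈ (redDataBar (N' * ℓ) A).Rw) :
    (redData2 (N' * ℓ) A h).red ⟨alphaB N' ℓ f, hx⟩ =
      (redDataBar (N' * ℓ) A).red ⟨betaB N' ℓ f, hx'⟩ := by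
  rw [red2_eq]
  congr 1
  exact Subtype.ext (wAut_alphaB N' h f)

/-- `red₂ (β f) = red₁ (α f)` -/
theorem red2_betaB (f : FN N') (hx : betaB N' ℓ f ∈ (redData2 (N' * ℓ) A h).Rw)
    (hx' : alphaB N' ℓ f ∈ (redDataBar (N' * ℓ) A).Rw) :
    (redData2 (N' * ℓ) A h).red ⟨betaB N' ℓ f, hx⟩ =
      (redDataBar (N' * ℓ) A).red ⟨alphaB N' ℓ f, hx'⟩ := by
  rw [red2_eq]
  congr 1
  exact Subtype.ext (wAut_betaB N' h f)

variable (N' ℓ A h)

/-- `B → Rw₁` -/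
def toRw1 : BRing N' ℓ A h →+* (redDataBar (N' * ℓ) A).Rw where
  toFun x := ⟨x.1, x.2.2.1⟩
  map_one' := Subtype.ext rfl
  map_mul' _ _ := Subtype.ext rfl
  map_zero' := Subtype.ext rfl
  map_add' _ _ := Subtype.ext rfl

/-- `B → Rw₂` -/
def toRw2 : BRing N' ℓ A h →+* (redData2 (N' * ℓ) A h).Rw where
  toFun x := ⟨x.1, x.2.2.2⟩
  map_one' := Subtype.ext rfl
  map_mul' _ _ := Subtype.ext rfl
  map_zero' := Subtype.ext rfl
  map_add' _ _ := Subtype.ext rfl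

/-- **`red₁` on `B`**, with values in `k((Q))` -/
def rho1 : BRing N' ℓ A h →+* LaurentSeries kA :=
  (FresBar (N' * ℓ) A).val.toRingHom.comp
    ((redDataBar (N' * ℓ) A).red.comp (toRw1 N' ℓ A h))

/-- **`red₂ = red₁ ∘ W_ℓ` on `B`**, with values in `k((Q))` -/
def rho2 : BRing N' ℓ A h →+* LaurentSeries kA :=
  (FresBar (N' * ℓ) A).val.toRingHom.comp
    ((redData2 (N' * ℓ) A h).red.comp (toRw2 N' ℓ A h))

theorem rho1_apply (x : BRing N' ℓ A h) :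
    rho1 N' ℓ A h x =
      (((redDataBar (N' * ℓ) A).red ⟨x.1, x.2.2.1⟩ : FresBar (N' * ℓ) A) : LaurentSeries kA) := rfl

theorem rho2_apply (x : BRing N' ℓ A h) :
    rho2 N' ℓ A h x =
      (((redData2 (N' * ℓ) A h).red ⟨x.1, x.2.2.2⟩ : FresBar (N' * ℓ) A) : LaurentSeries kA) := rfl

theorem rho1_algebraMap (a : A) :
    rho1 N' ℓ A h ⟨algebraMap Kbar (FN (N' * ℓ)) (a : Kbar), algebraMap_mem_BRing a⟩ =
      algebraMap kA (LaurentSeries kA) (IsLocalRing.residue A a) := by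
  rw [rho1_apply]
  have := (redDataBar (N' * ℓ) A).red_algebraMap a
  exact congrArg (fun y : FresBar (N' * ℓ) A => (y : LaurentSeries kA)) this

theorem rho2_algebraMap (a : A) :
    rho2 N' ℓ A h ⟨algebraMap Kbar (FN (N' * ℓ)) (a : Kbar), algebraMap_mem_BRing a⟩ =
      algebraMap kA (LaurentSeries kA) (IsLocalRing.residue A a) := by
  rw [rho2_apply]
  have := (redData2 (N' * ℓ) A h).red_algebraMap a
  exact congrArg (fun y : FresBar (N' * ℓ) A => (y : LaurentSeries kA)) this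

/-- the coordinate ring `C` inside `k((Q))` -/
def cVal : CRing N' A →ₐ[kA] LaurentSeries kA := (FresBar N' A).val.comp (CRing N' A).val

theorem cVal_apply (a : CRing N' A) :
    cVal N' A a = ((a : FresBar N' A) : LaurentSeries kA) := rfl

theorem cVal_injective : Function.Injective (cVal N' A) := fun _ _ hab =>
  Subtype.ext (Subtype.ext hab)

/-- `B~` as a subring of `C × C` -/
def BTsub : Subring (CRing N' A × CRing N' A) :=
  (((rho1 N' ℓ A h).prod (rho2 N' ℓ A h)).range).comap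
    (RingHom.prodMap (cVal N' A).toRingHom (cVal N' A).toRingHom)

theorem mem_BTsub {z : CRing N' A × CRing N' A} :
    z ∈ BTsub N' ℓ A h ↔ ∃ x : BRing N' ℓ A h, rho1 N' ℓ A h x = cVal N' A z.1 ∧
      rho2 N' ℓ A h x = cVal N' A z.2 := by
  rw [BTsub, Subring.mem_comap, RingHom.mem_range]
  constructor
  · rintro ⟨x, hx⟩
    exact ⟨x, congrArg Prod.fst hx, congrArg Prod.snd hx⟩
  · rintro ⟨x, h1, h2⟩
    exact ⟨x, Prod.ext h1 h2⟩

/-- **`B~`**, the reduction of `B` inside `C × C`: the pairs `(g, h)` with `g = red₁ x`,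
`h = red₂ x` (in `k((Q))`) for some `x ∈ B` -/
def BT : Subalgebra kA (CRing N' A × CRing N' A) where
  toSubsemiring := (BTsub N' ℓ A h).toSubsemiring
  algebraMap_mem' := by
    intro c
    obtain ⟨a, rfl⟩ := IsLocalRing.residue_surjective c
    show _ ∈ BTsub N' ℓ A h
    rw [mem_BTsub]
    refine ⟨⟨algebraMap Kbar (FN (N' * ℓ)) (a : Kbar), algebraMap_mem_BRing a⟩, ?_, ?_⟩
    · rw [rho1_algebraMap, Prod.algebraMap_apply]
      exact ((cVal N' A).commutes _).symm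
    · rw [rho2_algebraMap, Prod.algebraMap_apply]
      exact ((cVal N' A).commutes _).symm

theorem mem_BT {z : CRing N' A × CRing N' A} :
    z ∈ BT N' ℓ A h ↔ ∃ x : BRing N' ℓ A h, rho1 N' ℓ A h x = cVal N' A z.1 ∧
      rho2 N' ℓ A h x = cVal N' A z.2 := mem_BTsub N' ℓ A h

section Graphs

variable (hℓN : ¬ ℓ ∣ N') (hA : A.LiesOverPrime ℓ) (h2 : ℓ = 2 → 3 ∣ N') (h3 : ℓ = 3 → 2 ∣ N')
include h2 h3

/-- **the graph of `Ψ`**: `(a, Ψ a) ∈ B~` (reduction of `α f`, `f` a lift of `a`) -/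
theorem left_mem_BT (a : CRing N' A) : (a, psiC N' ℓ A hℓN hA a) ∈ BT N' ℓ A h := by
  obtain ⟨f, hfw, hfreg, hfa⟩ := exists_lift_bar N' A hℓN hA h2 h3 a.2
  have hfa' : (((redDataBar N' A).red ⟨f, hfw⟩ : FresBar N' A) : LaurentSeries kA) =
      ((a : FresBar N' A) : LaurentSeries kA) :=
    congrArg (fun y : FresBar N' A => (y : LaurentSeries kA)) hfa
  have hB := alphaB_mem_BRing (h := h) hfreg hfw
  have hβ : betaB N' ℓ f ∈ (redDataBar (N' * ℓ) A).Rw := (beta_mem_RwBar_iff N' ℓ A f).mpr hfw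
  rw [mem_BT]
  refine ⟨⟨alphaB N' ℓ f, hB⟩, ?_, ?_⟩
  · rw [rho1_apply, cVal_apply]
    exact (coe_red_alpha N' ℓ A ⟨f, hfw⟩ hB.2.1).trans hfa'
  · rw [rho2_apply, cVal_apply]
    show (((redData2 (N' * ℓ) A h).red ⟨alphaB N' ℓ f, hB.2.2⟩ : FresBar (N' * ℓ) A) :
      LaurentSeries kA) = qExpand kA ℓ ((a : FresBar N' A) : LaurentSeries kA)
    rw [red2_alphaB f hB.2.2 hβ, ← hfa']
    exact coe_red_beta N' ℓ A ⟨f, hfw⟩ hβ

/-- **the transposed graph**: `(Ψ b, b) ∈ B~` (reduction of `β f`, `f` a lift of `b`) -/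
theorem right_mem_BT (b : CRing N' A) : (psiC N' ℓ A hℓN hA b, b) ∈ BT N' ℓ A h := by
  obtain ⟨f, hfw, hfreg, hfb⟩ := exists_lift_bar N' A hℓN hA h2 h3 b.2
  have hfb' : (((redDataBar N' A).red ⟨f, hfw⟩ : FresBar N' A) : LaurentSeries kA) =
      ((b : FresBar N' A) : LaurentSeries kA) :=
    congrArg (fun y : FresBar N' A => (y : LaurentSeries kA)) hfb
  have hB := betaB_mem_BRing (h := h) hfreg hfw
  have hα : alphaB N' ℓ f ∈ (redDataBar (N' * ℓ) A).Rw :=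
    (alpha_mem_RwBar_iff N' ℓ A f).mpr hfw
  rw [mem_BT]
  refine ⟨⟨betaB N' ℓ f, hB⟩, ?_, ?_⟩
  · rw [rho1_apply, cVal_apply]
    show (((redDataBar (N' * ℓ) A).red ⟨betaB N' ℓ f, hB.2.1⟩ : FresBar (N' * ℓ) A) :
      LaurentSeries kA) = qExpand kA ℓ ((b : FresBar N' A) : LaurentSeries kA)
    rw [← hfb']
    exact coe_red_beta N' ℓ A ⟨f, hfw⟩ hB.2.1
  · rw [rho2_apply, cVal_apply]
    show (((redData2 (N' * ℓ) A h).red ⟨betaB N' ℓ f, hB.2.2⟩ : FresBar (N' * ℓ) A) :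
      LaurentSeries kA) = ((b : FresBar N' A) : LaurentSeries kA)
    rw [red2_betaB f hB.2.2 hα]
    exact (coe_red_alpha N' ℓ A ⟨f, hfw⟩ hα).trans hfb'

/-- **`B~` is a Frobenius glueing**: `B~ = {(g, h) ∈ C × C | g - Ψ h ∈ J'}` for ONE ideal
`J' ⊇ (a - Ψ² a : a ∈ C)`. -/
theorem exists_ideal_BT :
    ∃ J' : Ideal (CRing N' A), fixIdeal (psiC N' ℓ A hℓN hA) ≤ J' ∧
      BT N' ℓ A h = gluedAlg (psiC N' ℓ A hℓN hA) J' :=
  exists_ideal_eq_gluedAlg (psiC N' ℓ A hℓN hA) (BT N' ℓ A h)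
    (left_mem_BT N' ℓ A h hℓN hA h2 h3) (right_mem_BT N' ℓ A h hℓN hA h2 h3)

end Graphs

end Fermat.Agent.GK.QS
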