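import Fermat.Agent.GK.QS.OldRed
import Fermat.Agent.GJ.J1.Res.FresEq
import Fermat.Agent.GJ.S37.FrobSpecial
import Fermat.Agent.GJ.J1.Haupt.ChartRed
import Fermat.Agent.GJ.J1.Val.CharP
import Fermat.Agent.GJ.J1.ResidueAlgClosed

/-!
# GATE-K / N6 K2'-QS, file 2 (helper15): the `k`-linear Frobenius `Ψ` of the good level `N'`

`ℓ ∤ N'`, `A` a valuation subring of `ℚ̄` over `ℓ`, `k` its residue field,
`F̃' := FresBar N' A = k(j(Q^d) : d ∣ N') ⊂ k((Q))` (J1 M-RES), `j~ := red j`.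

* `psiF : F̃' →ₐ[k] F̃'`, `y(Q) ↦ y(Q^ℓ)` (`= qExpand k ℓ`); `psiF j~ = j~ ^ ℓ`;
* `exists_pow_eq_psiF` : `psiF y = b ^ ℓ` with `b` the coefficientwise `ℓ`-th root of `y`;
* `CRing : Subalgebra k F̃'` the integral closure of `k[j~]` (`= {y | RegFin k j~ y}`), the
  coordinate ring of the affine special fibre of level `N'`;
* `psiC : CRing →ₐ[k] CRing` the restriction of `psiF`, and `exists_pow_eq_psiC` (`= hΨ` of
  helper29's `GK/Nodal/FrobGlue.lean`);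
* `coe_psiF_red` : `psiF (red' f) = red₁ (β f)` (with `OldRed.redL_beta`).
-/

set_option autoImplicit false

noncomputable section

namespace Fermat.Agent.GK.QS

open HahnSeries ModularCurve Fermat.Agent.S24 Fermat.Agent.GJ.J1 Fermat.Agent.GJ.J1.Val
open Fermat.Agent.GJ.J1.Haupt Fermat.Agent.GJ.J3

section Good

variable (N' : ℕ) [NeZero N'] (ℓ : ℕ) [Fact ℓ.Prime] [NeZero ℓ]
variable (A : ValuationSubring (AlgebraicClosure ℚ))

local notation "Qb" => AlgebraicClosure ℚ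
local notation "kA" => IsLocalRing.ResidueField A

/-- `y ↦ y(Q^ℓ)` preserves the residue field of the good level `N'` -/
theorem qExpand_mem_FresBar (hℓN : ¬ ℓ ∣ N') (hA : A.LiesOverPrime ℓ) {y : LaurentSeries kA}
    (hy : y ∈ FresBar N' A) : qExpand kA ℓ y ∈ FresBar N' A := by
  have : CharP kA ℓ := charP_residue A Fact.out hA
  rw [Res.FresBar_eq_fullC N' A hℓN hA] at hy ⊢
  exact QS.qExpand_mem_modularFunctionFieldFullC kA ℓ N' hy

omit [NeZero ℓ] in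
/-- coefficientwise ring endomorphisms preserve the residue field of the good level `N'` -/
theorem coeffMap_mem_FresBar (hℓN : ¬ ℓ ∣ N') (hA : A.LiesOverPrime ℓ) (φ : kA →+* kA)
    {y : LaurentSeries kA} (hy : y ∈ FresBar N' A) : coeffMap φ y ∈ FresBar N' A := by
  rw [Res.FresBar_eq_fullC N' A hℓN hA] at hy ⊢
  exact Fermat.Agent.GJ.S37.Frob.coeffMap_mem_full kA N' φ hy

/-- **the `k`-linear Frobenius** `Ψ : y(Q) ↦ y(Q^ℓ)` of the residue field of level `N'` -/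
def psiF (hℓN : ¬ ℓ ∣ N') (hA : A.LiesOverPrime ℓ) : FresBar N' A →ₐ[kA] FresBar N' A where
  toFun y := ⟨qExpand kA ℓ (y : LaurentSeries kA), qExpand_mem_FresBar N' ℓ A hℓN hA y.2⟩
  map_one' := Subtype.ext (map_one (qExpand kA ℓ))
  map_mul' _ _ := Subtype.ext (map_mul (qExpand kA ℓ) _ _)
  map_zero' := Subtype.ext (map_zero (qExpand kA ℓ))
  map_add' _ _ := Subtype.ext (map_add (qExpand kA ℓ) _ _)
  commutes' a := Subtype.ext <| by
    show qExpand kA ℓ (algebraMap kA (LaurentSeries kA) a) = algebraMap kA (LaurentSeries kA) a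
    rw [algebraMap_laurentSeries_eq_single, qExpand_single, mul_zero]

@[simp]
theorem coe_psiF (hℓN : ¬ ℓ ∣ N') (hA : A.LiesOverPrime ℓ) (y : FresBar N' A) :
    (psiF N' ℓ A hℓN hA y : LaurentSeries kA) = qExpand kA ℓ (y : LaurentSeries kA) := rfl

/-- `j~`, the reduction of `j`, in the residue field of level `N'` -/
def jt : FresBar N' A := (redDataBar N' A).red ⟨jF N', jF_mem_Rw N' A⟩

theorem coe_jt : ((jt N' A : FresBar N' A) : LaurentSeries kA) = jqModC kA := coe_red_jF N' A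

/-- `Ψ j~ = j~ ^ ℓ` -/
theorem psiF_jt (hℓN : ¬ ℓ ∣ N') (hA : A.LiesOverPrime ℓ) :
    psiF N' ℓ A hℓN hA (jt N' A) = jt N' A ^ ℓ := by
  have : CharP kA ℓ := charP_residue A Fact.out hA
  apply Subtype.ext
  rw [coe_psiF, coe_jt]
  push_cast
  rw [coe_jt]
  exact QS.qExpand_jqModC_char ℓ

/-- **`Ψ y` is an `ℓ`-th power**: `Ψ y = b ^ ℓ`, `b` the coefficientwise `ℓ`-th root of `y` -/
theorem exists_pow_eq_psiF (hℓN : ¬ ℓ ∣ N') (hA : A.LiesOverPrime ℓ) (y : FresBar N' A) :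
    ∃ b : FresBar N' A, psiF N' ℓ A hℓN hA y = b ^ ℓ := by
  have : CharP kA ℓ := charP_residue A Fact.out hA
  have : IsAlgClosed kA := Fermat.Agent.GJ.ResidueAlgClosed.isAlgClosed_residueField A
  refine ⟨⟨coeffMap (((frobeniusEquiv kA ℓ).symm : kA ≃+* kA) : kA →+* kA)
    (y : LaurentSeries kA), coeffMap_mem_FresBar N' ℓ A hℓN hA _ y.2⟩, ?_⟩
  apply Subtype.ext
  rw [coe_psiF]
  push_cast
  rw [QS.pow_char_eq_qExpand ℓ]
  congr 1
  exact (Fermat.Agent.GJ.S37.Frob.coeffMap_coeffMap_symm kA (frobeniusEquiv kA ℓ) _).symm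

/-- `Ψ` preserves integrality over `k[j~]` -/
theorem regFin_psiF (hℓN : ¬ ℓ ∣ N') (hA : A.LiesOverPrime ℓ) {y : FresBar N' A}
    (hy : RegFin kA (jt N' A) y) : RegFin kA (jt N' A) (psiF N' ℓ A hℓN hA y) := by
  -- `Ψ` maps `k[j~]` into itself
  have hmaps : ∀ z : Algebra.adjoin kA {jt N' A},
      psiF N' ℓ A hℓN hA (z : FresBar N' A) ∈ Algebra.adjoin kA {jt N' A} := by
    rintro ⟨z, hz⟩
    have h1 : psiF N' ℓ A hℓN hA z ∈ (Algebra.adjoin kA {jt N' A}).map (psiF N' ℓ A hℓN hA) :=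
      ⟨z, hz, rfl⟩
    rw [AlgHom.map_adjoin, Set.image_singleton, psiF_jt] at h1
    refine Algebra.adjoin_le ?_ h1
    rintro _ rfl
    exact pow_mem (Algebra.self_mem_adjoin_singleton kA _) ℓ
  let φ : Algebra.adjoin kA {jt N' A} →+* Algebra.adjoin kA {jt N' A} :=
    ((psiF N' ℓ A hℓN hA).toRingHom.comp (Algebra.adjoin kA {jt N' A}).val.toRingHom).codRestrict
      (Algebra.adjoin kA {jt N' A}).toSubring hmaps
  exact IsIntegral.map_of_comp_eq φ (psiF N' ℓ A hℓN hA).toRingHom (RingHom.ext fun _ => rfl) hy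

/-- **the coordinate ring `C` of the affine special fibre of level `N'`**: the integral closure of
`k[j~]` in `F̃'` -/
def CRing : Subalgebra kA (FresBar N' A) where
  carrier := {y | RegFin kA (jt N' A) y}
  mul_mem' := RegFin.mul
  add_mem' := RegFin.add
  algebraMap_mem' c := regFin_algebraMap _ c

theorem mem_CRing {y : FresBar N' A} : y ∈ CRing N' A ↔ RegFin kA (jt N' A) y := Iff.rfl

theorem jt_mem_CRing : jt N' A ∈ CRing N' A := regFin_self _

/-- **`Ψ` on the coordinate ring** -/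
def psiC (hℓN : ¬ ℓ ∣ N') (hA : A.LiesOverPrime ℓ) : CRing N' A →ₐ[kA] CRing N' A :=
  ((psiF N' ℓ A hℓN hA).comp (CRing N' A).val).codRestrict (CRing N' A)
    (fun z => regFin_psiF N' ℓ A hℓN hA z.2)

@[simp]
theorem coe_psiC (hℓN : ¬ ℓ ∣ N') (hA : A.LiesOverPrime ℓ) (a : CRing N' A) :
    ((psiC N' ℓ A hℓN hA a : CRing N' A) : FresBar N' A) = psiF N' ℓ A hℓN hA a := rfl

/-- **`Ψ(C) ⊂ C^ℓ`** (hypothesis `hΨ` of `GK/Nodal/FrobGlue.lean`) -/
theorem exists_pow_eq_psiC (hℓN : ¬ ℓ ∣ N') (hA : A.LiesOverPrime ℓ) (a : CRing N' A) :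
    ∃ b : CRing N' A, psiC N' ℓ A hℓN hA a = b ^ ℓ := by
  obtain ⟨b, hb⟩ := exists_pow_eq_psiF N' ℓ A hℓN hA (a : FresBar N' A)
  have hbC : b ∈ CRing N' A := by
    have h1 : RegFin kA (jt N' A) (b ^ ℓ) := hb ▸ regFin_psiF N' ℓ A hℓN hA a.2
    exact RegFin.of_pow (Fact.out : ℓ.Prime).pos h1
  exact ⟨⟨b, hbC⟩, Subtype.ext (by rw [coe_psiC, hb]; rfl)⟩

/-- `Ψ (red' f) = red₁ (β f)`, as Laurent series -/
theorem coe_psiF_red (hℓN : ¬ ℓ ∣ N') (hA : A.LiesOverPrime ℓ) (f : RwBar N' A)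
    (h : heckeBetaBar Qb N' ℓ f ∈ RwBar (N' * ℓ) A) :
    ((psiF N' ℓ A hℓN hA ((redDataBar N' A).red f) : FresBar N' A) : LaurentSeries kA) =
      (((redDataBar (N' * ℓ) A).red ⟨heckeBetaBar Qb N' ℓ f, h⟩ : FresBar (N' * ℓ) A) :
        LaurentSeries kA) :=
  (coe_red_beta N' ℓ A f h).symm

end Good

end Fermat.Agent.GK.QS
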