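import Fermat.Agent.GK.QS.FrobStable

/-!
# GATE-K / (G1), special-fibre side (helper40): the SEMILINEAR (coefficientwise) Frobenius `τ`
of the coordinate ring `CRing N' A` of helper15's `GK/QS/FrobStable.lean`

`ℓ ∤ N'`, `A` over `ℓ`, `k` its residue field, `F̃' = FresBar N' A ⊂ k((Q))`, `C = CRing N' A` the
integral closure of `k[j~]`, `Ψ = psiC : y(Q) ↦ y(Q^ℓ)` the `k`-linear Frobenius.

For ANY ring endomorphism `φ` of `k` (coefficientwise action):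

* `coeffF φ : F̃' →+* F̃'`, `coe_coeffF`, `coeffF_algebraMap` (`φ`-semilinear), `coeffF_jt`
  (`j~` has coefficients in the prime field);
* `regFin_coeffF` : `coeffF φ` preserves integrality over `k[j~]`; `coeffC φ : C →+* C`;
* `coeffC_psiC` : `coeffC φ` commutes with `Ψ`;
* `psiC_coeffC` : **`Ψ (τ a) = a ^ ℓ`** for `φ c = c ^ ℓ` — the hypothesis `hΨS` of
  `FrobNodes.e1_nodePerm`, `e2_nodePerm` (`GK/SS/FrobNodesSymm.lean`);
* `psiC_eq_pow_coeffC` : `Ψ a = (τ' a) ^ ℓ` for `φ' (c ^ ℓ) = c` (the inverse Frobenius) — the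
  hypothesis `hΨS'` of `FrobNodes.map_mem_of_symm`.
-/

set_option autoImplicit false

noncomputable section

namespace Fermat.Agent.GK.QS

open HahnSeries ModularCurve Fermat.Agent.S24 Fermat.Agent.GJ.J1 Fermat.Agent.GJ.J1.Val
open Fermat.Agent.GJ.J1.Haupt Fermat.Agent.GJ.J3

variable (N' : ℕ) [NeZero N'] (ℓ : ℕ) [Fact ℓ.Prime] [NeZero ℓ]
variable (A : ValuationSubring (AlgebraicClosure ℚ))

local notation "kA" => IsLocalRing.ResidueField A

/-- **the coefficientwise action of `φ : k →+* k`** on the residue field of the good level `N'` -/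
def coeffF (hℓN : ¬ ℓ ∣ N') (hA : A.LiesOverPrime ℓ) (φ : kA →+* kA) :
    FresBar N' A →+* FresBar N' A :=
  RingHom.codRestrict
    ((coeffMap φ).comp (algebraMap (FresBar N' A) (LaurentSeries kA))) (FresBar N' A)
    (fun y => coeffMap_mem_FresBar N' ℓ A hℓN hA φ y.2)

@[simp]
theorem coe_coeffF (hℓN : ¬ ℓ ∣ N') (hA : A.LiesOverPrime ℓ) (φ : kA →+* kA) (y : FresBar N' A) :
    ((coeffF N' ℓ A hℓN hA φ y : FresBar N' A) : LaurentSeries kA) =
      coeffMap φ (y : LaurentSeries kA) := rfl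

/-- `coeffF φ` is `φ`-semilinear -/
theorem coeffF_algebraMap (hℓN : ¬ ℓ ∣ N') (hA : A.LiesOverPrime ℓ) (φ : kA →+* kA) (c : kA) :
    coeffF N' ℓ A hℓN hA φ (algebraMap kA (FresBar N' A) c) =
      algebraMap kA (FresBar N' A) (φ c) := by
  apply Subtype.ext
  rw [coe_coeffF]
  show coeffMap φ (algebraMap kA (LaurentSeries kA) c) = algebraMap kA (LaurentSeries kA) (φ c)
  rw [algebraMap_laurentSeries_eq_single, algebraMap_laurentSeries_eq_single, coeffMap_single]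

/-- `j~` has coefficients in the prime field -/
theorem coeffF_jt (hℓN : ¬ ℓ ∣ N') (hA : A.LiesOverPrime ℓ) (φ : kA →+* kA) :
    coeffF N' ℓ A hℓN hA φ (jt N' A) = jt N' A := by
  apply Subtype.ext
  rw [coe_coeffF, coe_jt, coeffMap_jqModC]

/-- `coeffF φ` maps `k[j~]` into itself -/
theorem coeffF_mem_adjoin (hℓN : ¬ ℓ ∣ N') (hA : A.LiesOverPrime ℓ) (φ : kA →+* kA)
    {z : FresBar N' A} (hz : z ∈ Algebra.adjoin kA {jt N' A}) :
    coeffF N' ℓ A hℓN hA φ z ∈ Algebra.adjoin kA {jt N' A} := by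
  induction hz using Algebra.adjoin_induction with
  | mem x hx =>
    rw [Set.mem_singleton_iff] at hx
    rw [hx, coeffF_jt]
    exact Algebra.self_mem_adjoin_singleton kA _
  | algebraMap c =>
    rw [coeffF_algebraMap]
    exact Subalgebra.algebraMap_mem _ _
  | add x y _ _ hx hy =>
    rw [map_add]
    exact add_mem hx hy
  | mul x y _ _ hx hy =>
    rw [map_mul]
    exact mul_mem hx hy

/-- `coeffF φ` preserves integrality over `k[j~]` -/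
theorem regFin_coeffF (hℓN : ¬ ℓ ∣ N') (hA : A.LiesOverPrime ℓ) (φ : kA →+* kA)
    {y : FresBar N' A} (hy : RegFin kA (jt N' A) y) :
    RegFin kA (jt N' A) (coeffF N' ℓ A hℓN hA φ y) := by
  let ψ : Algebra.adjoin kA {jt N' A} →+* Algebra.adjoin kA {jt N' A} :=
    ((coeffF N' ℓ A hℓN hA φ).comp (Algebra.adjoin kA {jt N' A}).val.toRingHom).codRestrict
      (Algebra.adjoin kA {jt N' A}).toSubring
      (fun z => coeffF_mem_adjoin N' ℓ A hℓN hA φ z.2)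
  exact IsIntegral.map_of_comp_eq ψ (coeffF N' ℓ A hℓN hA φ) (RingHom.ext fun _ => rfl) hy

/-- **the coefficientwise action of `φ` on the coordinate ring** -/
def coeffC (hℓN : ¬ ℓ ∣ N') (hA : A.LiesOverPrime ℓ) (φ : kA →+* kA) :
    CRing N' A →+* CRing N' A :=
  RingHom.codRestrict
    ((coeffF N' ℓ A hℓN hA φ).comp (CRing N' A).val.toRingHom) (CRing N' A)
    (fun z => regFin_coeffF N' ℓ A hℓN hA φ z.2)

@[simp]
theorem coe_coeffC (hℓN : ¬ ℓ ∣ N') (hA : A.LiesOverPrime ℓ) (φ : kA →+* kA) (a : CRing N' A) :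
    ((coeffC N' ℓ A hℓN hA φ a : CRing N' A) : FresBar N' A) =
      coeffF N' ℓ A hℓN hA φ (a : FresBar N' A) := rfl

/-- `coeffC φ` is `φ`-semilinear -/
theorem coeffC_algebraMap (hℓN : ¬ ℓ ∣ N') (hA : A.LiesOverPrime ℓ) (φ : kA →+* kA) (c : kA) :
    coeffC N' ℓ A hℓN hA φ (algebraMap kA (CRing N' A) c) =
      algebraMap kA (CRing N' A) (φ c) :=
  Subtype.ext (coeffF_algebraMap N' ℓ A hℓN hA φ c)

/-- the coefficientwise action commutes with `Ψ : y(Q) ↦ y(Q^ℓ)` -/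
theorem coeffF_psiF (hℓN : ¬ ℓ ∣ N') (hA : A.LiesOverPrime ℓ) (φ : kA →+* kA)
    (y : FresBar N' A) :
    coeffF N' ℓ A hℓN hA φ (psiF N' ℓ A hℓN hA y) =
      psiF N' ℓ A hℓN hA (coeffF N' ℓ A hℓN hA φ y) := by
  apply Subtype.ext
  rw [coe_coeffF, coe_psiF, coe_psiF, coe_coeffF, coeffMap_qExpand]

theorem coeffC_psiC (hℓN : ¬ ℓ ∣ N') (hA : A.LiesOverPrime ℓ) (φ : kA →+* kA)
    (a : CRing N' A) :
    coeffC N' ℓ A hℓN hA φ (psiC N' ℓ A hℓN hA a) =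
      psiC N' ℓ A hℓN hA (coeffC N' ℓ A hℓN hA φ a) :=
  Subtype.ext (coeffF_psiF N' ℓ A hℓN hA φ a)

/-- **`Ψ (τ y) = y ^ ℓ`** for the coefficientwise Frobenius `τ` -/
theorem psiF_coeffF (hℓN : ¬ ℓ ∣ N') (hA : A.LiesOverPrime ℓ) (φ : kA →+* kA)
    (hφ : ∀ c, φ c = c ^ ℓ) (y : FresBar N' A) :
    psiF N' ℓ A hℓN hA (coeffF N' ℓ A hℓN hA φ y) = y ^ ℓ := by
  have : CharP kA ℓ := charP_residue A Fact.out hA
  have hφ' : φ = frobenius kA ℓ := RingHom.ext fun c => by rw [hφ, frobenius_def]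
  apply Subtype.ext
  rw [coe_psiF, coe_coeffF, hφ']
  push_cast
  exact (QS.pow_char_eq_qExpand ℓ _).symm

/-- **`Ψ (τ a) = a ^ ℓ`** on the coordinate ring (hypothesis `hΨS` of `FrobNodes.e1_nodePerm`) -/
theorem psiC_coeffC (hℓN : ¬ ℓ ∣ N') (hA : A.LiesOverPrime ℓ) (φ : kA →+* kA)
    (hφ : ∀ c, φ c = c ^ ℓ) (a : CRing N' A) :
    psiC N' ℓ A hℓN hA (coeffC N' ℓ A hℓN hA φ a) = a ^ ℓ :=
  Subtype.ext (psiF_coeffF N' ℓ A hℓN hA φ hφ a)

/-- `τ' ∘ τ = id` when `φ' (φ c) = c` -/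
theorem coeffF_coeffF_of_inv (hℓN : ¬ ℓ ∣ N') (hA : A.LiesOverPrime ℓ) (φ φ' : kA →+* kA)
    (h : ∀ c, φ' (φ c) = c) (y : FresBar N' A) :
    coeffF N' ℓ A hℓN hA φ' (coeffF N' ℓ A hℓN hA φ y) = y := by
  apply Subtype.ext
  rw [coe_coeffF, coe_coeffF]
  ext n
  rw [coeffMap_coeff, coeffMap_coeff, h]

/-- **`Ψ y = (τ' y) ^ ℓ`** for the inverse coefficientwise Frobenius `τ'` -/
theorem psiF_eq_pow_coeffF (hℓN : ¬ ℓ ∣ N') (hA : A.LiesOverPrime ℓ) (φ' : kA →+* kA)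
    (hφ' : ∀ c, φ' c ^ ℓ = c) (y : FresBar N' A) :
    psiF N' ℓ A hℓN hA y = coeffF N' ℓ A hℓN hA φ' y ^ ℓ := by
  have : CharP kA ℓ := charP_residue A Fact.out hA
  rw [← psiF_coeffF N' ℓ A hℓN hA (frobenius kA ℓ) (fun c => frobenius_def ℓ c)
    (coeffF N' ℓ A hℓN hA φ' y),
    coeffF_coeffF_of_inv N' ℓ A hℓN hA φ' (frobenius kA ℓ)
      (fun c => by rw [frobenius_def, hφ'])]

/-- **`Ψ a = (τ' a) ^ ℓ`** on the coordinate ring (hypothesis `hΨS'` of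
`FrobNodes.map_mem_of_symm`) -/
theorem psiC_eq_pow_coeffC (hℓN : ¬ ℓ ∣ N') (hA : A.LiesOverPrime ℓ) (φ' : kA →+* kA)
    (hφ' : ∀ c, φ' c ^ ℓ = c) (a : CRing N' A) :
    psiC N' ℓ A hℓN hA a = coeffC N' ℓ A hℓN hA φ' a ^ ℓ :=
  Subtype.ext (psiF_eq_pow_coeffF N' ℓ A hℓN hA φ' hφ' a)

end Fermat.Agent.GK.QS
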