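import Fermat.Agent.GK.QS.BTilde
import Fermat.Agent.GK.QS.FrobTau
import Fermat.Agent.GK.AL.SecondValGal
import Fermat.Agent.GK.SS.FrobNodesSymm

/-!
# GATE-K / (G1), node side (helper40): the special fibre `B~` of helper15's `GK/QS/BTilde.lean`
is stable under the decomposition group, hence its node ideal `J'` is Frobenius stable

`ℓ ∥ N = N' ℓ`, `A` over `ℓ`, `B = BRing N' ℓ A h`, `B~ = BT N' ℓ A h ⊂ C × C`, `C = CRing N' A`.

* `regFin_map_of_semilinear` : a ring endomorphism of `F`, semilinear over the constants and fixing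
  the chart `s`, preserves integrality over `K[s]`;
* `galF_mem_BRing` : `σ ∈ D(A)` preserves `B`; `rho1_galF`, `rho2_galF` :
  `ρ_i (σ x) = coeffMap (resk A σ _) (ρ_i x)`;
* `coeffC_mem_BT` : `z ∈ B~ ⟹ (σ~ z.1, σ~ z.2) ∈ B~` with `σ~ = coeffC (resk A σ _)` the
  coefficientwise action on the coordinate ring (`GK/QS/FrobTau.lean`);
* `psiC_map_mem_of_BT_eq` : **`Ψ J' ⊆ J'`** for the ideal `J'` with `B~ = gluedAlg Ψ J'`
  (`exists_ideal_BT`), as soon as a Frobenius element `φ` at `A` exists — the hypothesis `hΨJ` of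
  `FrobNodes.nodePerm` / `frob_sq_of_frobNodes`.
-/

set_option autoImplicit false
set_option linter.unusedSectionVars false

noncomputable section

namespace Fermat.Agent.GK.QS

open HahnSeries ModularCurve Fermat.Agent.S24 Fermat.Agent.GJ.J1 Fermat.Agent.GJ.J1.Val
open Fermat.Agent.GJ.J1.Haupt Fermat.Agent.GK.AL Fermat.Agent.GK.FrobGlue IsLocalRing

section Generic

variable {K F : Type*} [Field K] [Field F] [Algebra K F]

/-- a ring endomorphism which is semilinear over the constants and fixes `s` maps `K[s]` into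
itself -/
theorem map_mem_adjoin_of_semilinear (g : F →+* F) (σ0 : K → K)
    (hg : ∀ c, g (algebraMap K F c) = algebraMap K F (σ0 c)) {s : F} (hs : g s = s) {z : F}
    (hz : z ∈ Algebra.adjoin K {s}) : g z ∈ Algebra.adjoin K {s} := by
  induction hz using Algebra.adjoin_induction with
  | mem x hx =>
    rw [Set.mem_singleton_iff] at hx
    rw [hx, hs]
    exact Algebra.self_mem_adjoin_singleton _ _
  | algebraMap c =>
    rw [hg]
    exact Subalgebra.algebraMap_mem _ _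
  | add x y _ _ hx hy =>
    rw [map_add]
    exact add_mem hx hy
  | mul x y _ _ hx hy =>
    rw [map_mul]
    exact mul_mem hx hy

/-- a ring endomorphism which is semilinear over the constants and fixes the chart `s` preserves
integrality over `K[s]` -/
theorem regFin_map_of_semilinear (g : F →+* F) (σ0 : K → K)
    (hg : ∀ c, g (algebraMap K F c) = algebraMap K F (σ0 c)) {s : F} (hs : g s = s) {x : F}
    (hx : RegFin K s x) : RegFin K s (g x) := by
  let ψ : Algebra.adjoin K {s} →+* Algebra.adjoin K {s} :=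
    (g.comp (Algebra.adjoin K {s}).val.toRingHom).codRestrict (Algebra.adjoin K {s}).toSubring
      (fun z => map_mem_adjoin_of_semilinear g σ0 hg hs z.2)
  exact IsIntegral.map_of_comp_eq ψ g (RingHom.ext fun _ => rfl) hx

end Generic

variable (N' : ℕ) [NeZero N'] (ℓ : ℕ) [Fact ℓ.Prime] [NeZero ℓ]
variable (A : ValuationSubring Kbar) (h : ExactDvd ℓ (N' * ℓ))

local notation "kA" => IsLocalRing.ResidueField A

/-- the Galois action preserves regularity off the cusps -/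
theorem regFin_galF (σ : Kbar ≃ₐ[ℚ] Kbar) {x : FN (N' * ℓ)}
    (hx : RegFin Kbar (jF (N' * ℓ)) x) : RegFin Kbar (jF (N' * ℓ)) (galF (N' * ℓ) σ x) :=
  regFin_map_of_semilinear ((galF (N' * ℓ) σ : FN (N' * ℓ) ≃+* FN (N' * ℓ)) :
      FN (N' * ℓ) →+* FN (N' * ℓ)) σ
    (fun c => galF_algebraMap σ c)
    (by
      show galF (N' * ℓ) σ (jF (N' * ℓ)) = jF (N' * ℓ)
      rw [jF_eq_gen, galF_gen]) hx

variable {N' ℓ A h}

/-- **the decomposition group preserves `B`** -/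
theorem galF_mem_BRing {σ : Kbar ≃ₐ[ℚ] Kbar} (hσ : σ ∈ A.decompositionSubgroup ℚ)
    {x : FN (N' * ℓ)} (hx : x ∈ BRing N' ℓ A h) : galF (N' * ℓ) σ x ∈ BRing N' ℓ A h :=
  ⟨regFin_galF N' ℓ σ hx.1, galF_mem_Rw1 hσ hx.2.1, galF_mem_Rw2 hσ hx.2.2⟩

/-- `ρ₁ (σ x) = σ~ (ρ₁ x)` coefficientwise -/
theorem rho1_galF {σ : Kbar ≃ₐ[ℚ] Kbar} (hσ : σ ∈ A.decompositionSubgroup ℚ)
    (x : BRing N' ℓ A h) :
    rho1 N' ℓ A h ⟨galF (N' * ℓ) σ x.1, galF_mem_BRing hσ x.2⟩ =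
      coeffMap (resk A σ hσ) (rho1 N' ℓ A h x) := by
  rw [rho1_apply, rho1_apply]
  exact coe_red1_galF hσ x.2.2.1 _

/-- `ρ₂ (σ x) = σ~ (ρ₂ x)` coefficientwise -/
theorem rho2_galF {σ : Kbar ≃ₐ[ℚ] Kbar} (hσ : σ ∈ A.decompositionSubgroup ℚ)
    (x : BRing N' ℓ A h) :
    rho2 N' ℓ A h ⟨galF (N' * ℓ) σ x.1, galF_mem_BRing hσ x.2⟩ =
      coeffMap (resk A σ hσ) (rho2 N' ℓ A h x) := by
  rw [rho2_apply, rho2_apply]
  exact coe_red2_galF hσ x.2.2.2 _

variable (N' ℓ A h)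
variable (hℓN : ¬ ℓ ∣ N') (hA : A.LiesOverPrime ℓ)

/-- `cVal (σ~ a) = coeffMap σ~ (cVal a)` -/
theorem cVal_coeffC (φ : kA →+* kA) (a : CRing N' A) :
    cVal N' A (coeffC N' ℓ A hℓN hA φ a) = coeffMap φ (cVal N' A a) := rfl

/-- **`B~` is stable under the coefficientwise action of the decomposition group** -/
theorem coeffC_mem_BT {σ : Kbar ≃ₐ[ℚ] Kbar} (hσ : σ ∈ A.decompositionSubgroup ℚ)
    {z : CRing N' A × CRing N' A} (hz : z ∈ BT N' ℓ A h) :
    ((coeffC N' ℓ A hℓN hA (resk A σ hσ) z.1, coeffC N' ℓ A hℓN hA (resk A σ hσ) z.2) :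
      CRing N' A × CRing N' A) ∈ BT N' ℓ A h := by
  rw [mem_BT] at hz ⊢
  obtain ⟨x, h1, h2⟩ := hz
  refine ⟨⟨galF (N' * ℓ) σ x.1, galF_mem_BRing hσ x.2⟩, ?_, ?_⟩
  · rw [rho1_galF hσ x, h1, cVal_coeffC]
  · rw [rho2_galF hσ x, h2, cVal_coeffC]

/-- the inverse of a Frobenius element induces the `ℓ`-th root on the residue field -/
theorem resk_inv_pow_of_frobenius {φ : Kbar ≃ₐ[ℚ] Kbar} (hφ : A.IsFrobeniusAt φ ℓ) (c : kA) :
    resk A φ⁻¹ (inv_mem hφ.mem_decompositionSubgroup) c ^ ℓ = c := by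
  have h1 := hφ.smul_residue_eq (resk A φ⁻¹ (inv_mem hφ.mem_decompositionSubgroup) c)
  rw [← h1]
  show (⟨φ, hφ.mem_decompositionSubgroup⟩ : A.decompositionSubgroup ℚ) •
    ((⟨φ⁻¹, inv_mem hφ.mem_decompositionSubgroup⟩ : A.decompositionSubgroup ℚ) • c) = c
  have e : (⟨φ⁻¹, inv_mem hφ.mem_decompositionSubgroup⟩ : A.decompositionSubgroup ℚ) =
      (⟨φ, hφ.mem_decompositionSubgroup⟩ : A.decompositionSubgroup ℚ)⁻¹ := rfl
  rw [e, smul_inv_smul]

/-- **the node ideal of `B~` is Frobenius stable**: `Ψ J' ⊆ J'` for the ideal `J'` of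
`exists_ideal_BT`. -/
theorem psiC_map_mem_of_BT_eq {J' : Ideal (CRing N' A)}
    (hBT : BT N' ℓ A h = gluedAlg (psiC N' ℓ A hℓN hA) J')
    {φ : Kbar ≃ₐ[ℚ] Kbar} (hφ : A.IsFrobeniusAt φ ℓ) :
    ∀ d ∈ J', psiC N' ℓ A hℓN hA d ∈ J' := by
  have hφi : φ⁻¹ ∈ A.decompositionSubgroup ℚ := inv_mem hφ.mem_decompositionSubgroup
  refine Fermat.Agent.GK.SS.FrobNodes.map_mem_of_symm (psiC N' ℓ A hℓN hA) J'
    (NeZero.ne ℓ) (coeffC N' ℓ A hℓN hA (resk A φ⁻¹ hφi)) (map_zero _)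
    (psiC_eq_pow_coeffC N' ℓ A hℓN hA (resk A φ⁻¹ hφi)
      (resk_inv_pow_of_frobenius ℓ A hφ)) ?_
  intro z hz
  rw [← hBT] at hz ⊢
  exact coeffC_mem_BT N' ℓ A h hℓN hA hφi hz

end Fermat.Agent.GK.QS
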