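import Fermat.Agent.GK.QS.BTildeFull

/-!
# GATE-K / N6 K2'-QS, file 7 (helper15): conjunct (3) of `SS.Modular.FibreFacts`

`rho_mem_range_cVal` : for every `x ∈ B = BRing N' ℓ A h`, both reductions `rho1 x`, `rho2 x`
(Laurent series over `k`) lie in the range of `cVal : CRing N' A →ₐ[k] k((Q))`, i.e. are
(the expansions of) functions on the affine special fibre of level `N'`, regular off the cusps.
-/

set_option autoImplicit false

namespace Fermat.Agent.GK.QS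

open Fermat.Agent.S24 Fermat.Agent.GJ.J1 Fermat.Agent.GJ.J1.Val Fermat.Agent.GK.AL

/-- **conjunct (3) of `FibreFacts`** (K-RED for `B`) -/
theorem rho_mem_range_cVal (N' : ℕ) [NeZero N'] (ℓ : ℕ) [Fact ℓ.Prime] [NeZero ℓ]
    (A : ValuationSubring Kbar) (h : ExactDvd ℓ (N' * ℓ)) (hA : A.LiesOverPrime ℓ)
    (hℓN : ¬ ℓ ∣ N') (x : BRing N' ℓ A h) :
    rho1 N' ℓ A h x ∈ Set.range (cVal N' A) ∧ rho2 N' ℓ A h x ∈ Set.range (cVal N' A) := by
  obtain ⟨z, -, e1, e2⟩ := exists_mem_BT_of_mem_BRing N' ℓ A h hℓN hA x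
  exact ⟨⟨z.1, e1.symm⟩, ⟨z.2, e2.symm⟩⟩

end Fermat.Agent.GK.QS
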